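/-
GATE-E / E8.3 LLQ (helper86): **the CASE A half of level lowering at `q ≠ p` for general
semistable `W`, every odd `p`, at a MINIMAL level** — the supplier of the minimal-level binder `hSg`
of GATE-B's CASE B (`GB/Top/SplitMin.CaseB38minFlatF`, `SplitMinOrd.CaseB38minNewFO`), now also at
`ℓ = 2` and at `p = 3`.

* `RemovableStmt`            : the target of E8.3b (remove) (board 7054, helper96 + helper90), as a
                               `Prop`;
* `auxSupply_of_removable`   : `RemovableStmt` + helper90's `Sigma.exists_aux_prime_not_dvd`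
                               ⟹ `AuxJuggle.AuxSupply W p` (every odd `p`, `W` semistable);
* `isUnramifiedAt_of_resMod` : `ρ̄_W` is unramified at every prime `r ∤ M p` when `W` is residually
                               modular of level `M` (`RhoBar.isUnramifiedAt` + `Irr2.HabsW`: no
                               transvection binder);
* `lower_two_five_le`        : `5 ≤ p`, `2 ∣ M`, `ρ̄` unramified at `2` ⟹ level `M / 2`
                               (`3` is put into the level if necessary and taken out again by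
                               GATE-B's `GB.A.caseA38` at `(p, 3)`);
* `hSg_of_minimal_five_le`   : `5 ≤ p`: at a minimal level every prime `ℓ ≠ p` of the level is
                               ramified or `≡ 1 (mod p)` with scalar Frobenius — ALSO `ℓ = 2`;
* `hSg_of_minimal_three`     : the same at `p = 3` for the primes `ℓ ≥ 5`, and at `ℓ = 2` when
                               `3 ∣ M` (when `3 ∤ M` the level `M / 2 · 3` is reached: E8.4).
-/
import Mathlib
import Fermat.Agent.GE8.LLQ.AuxJuggle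
import Fermat.Agent.GE8.AuxR.Sigma
import Fermat.Agent.GE8.Irr2.HabsW
import Fermat.Agent.GB.A.CaseA38
import Fermat.Agent.GB.Setup.RhoBar

set_option autoImplicit false
set_option linter.unusedSectionVars false
set_option linter.unusedVariables false

noncomputable section

open WeierstrassCurve WeierstrassCurve.Affine WeierstrassCurve.Affine.Point
open scoped WeierstrassCurve.Affine

namespace Fermat.Agent.GE8.LLQ.MinLevel

open Fermat.Agent.GB.Top.S43Frey Fermat.Agent.GE8.LLQ.CaseASide Fermat.Agent.GE8.LLQ.AuxJuggle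
open Fermat.Agent.GB.Setup.RhoBar

/-- **E8.3b (remove)**, the target statement (board 7054): an auxiliary prime `r ≠ p` of good
reduction with `a_r(W)² ≢ (r + 1)² (mod p)` can be taken out of the level. -/
def RemovableStmt : Prop :=
  ∀ (W : WeierstrassCurve ℤ) (_ : W.Δ ≠ 0) (p : ℕ) [Fact p.Prime] (_ : p ≠ 2)
    (_ : W.ModRepIsIrreducible p) (r : ℕ) (_ : r.Prime) (_ : r ≠ p) (_ : W.IsGoodPrimeFor r)
    (_ : (((W.apOfModel r : ℤ) : ZMod p)) ^ 2 ≠ ((r : ZMod p) + 1) ^ 2) (L : ℕ) (_ : ¬ r ∣ L),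
    W.IsResiduallyModularOfLevel p (L * r) → W.IsResiduallyModularOfLevel p L

/-- **the supply of removable auxiliary primes** from E8.3b (choose) [helper90, on main] and
E8.3b (remove). -/
theorem auxSupply_of_removable (hrem : RemovableStmt) (W : WeierstrassCurve ℤ)
    (hss : W.IsSemistableModel) (hΔ : W.Δ ≠ 0) (p : ℕ) [Fact p.Prime] (hp2 : p ≠ 2)
    (hirr : W.ModRepIsIrreducible p) : AuxSupply W p := by
  intro n hn
  obtain ⟨r, hr, hrn, h12, hrp, hgood, har⟩ :=
    Fermat.Agent.GE8.AuxR.Sigma.exists_aux_prime_not_dvd W hss hΔ hp2 hirr hn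
  refine ⟨r, hr, hrn, h12, fun L hsq hres => ?_⟩
  have hrL : ¬ r ∣ L := by
    intro hd
    have h1 : r * r ∣ L * r := Nat.mul_dvd_mul hd dvd_rfl
    exact hr.one_lt.ne' (Nat.isUnit_iff.1 (hsq r h1))
  exact hrem W hΔ p hp2 hirr r hr hrp hgood har L hrL hres

section Main

variable (p : ℕ) [Fact p.Prime] (hp2 : p ≠ 2) (W : WeierstrassCurve ℤ) (hΔ : W.Δ ≠ 0)
  (hW : W.IsSemistableModel)
  (hcard₁ : Nat.card (Submodule.torsionBy ℤ
    ((W.map (Int.castRingHom ℚ))⁄(AlgebraicClosure ℚ)).Point p) = p ^ 2)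
  (hker : GaloisFactorsThroughFiniteLevel
    (WeierstrassCurve.Affine.Point.galoisRepModuleEnd (K := AlgebraicClosure ℚ) ℚ
      (W.map (Int.castRingHom ℚ)) p))
  (hirr : W.ModRepIsIrreducible p)

include hp2 hΔ hirr in
/-- `ρ̄_W` is unramified at every prime `r ∤ M p` when `W` is residually modular of level `M`
(no transvection binder: absolute irreducibility from oddness, `Irr2.HabsW`). -/
theorem isUnramifiedAt_of_resMod {M : ℕ} (hM : M ≠ 0)
    (hres : W.IsResiduallyModularOfLevel p M) {r : ℕ} (hr : r.Prime) (hrMp : ¬ r ∣ M * p) :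
    ((W.map (Int.castRingHom ℚ)).residualGaloisRepOf p hcard₁ hker).IsUnramifiedAt r := by
  obtain ⟨D⟩ := (nonempty_modData_iff W p M).1 hres
  exact isUnramifiedAt hcard₁ hker D hM hΔ hirr
    (Fermat.Agent.GE8.Irr2.HabsW.isAbsolutelyIrreducible_rb_baseChange hcard₁ hker hp2 hΔ hirr
      D.κ) hr hrMp

include hΔ hW hirr in
/-- **`q = 2` at `5 ≤ p`, no side condition**: the level drops to `M / 2`. -/
theorem lower_two_five_le (hp5 : 5 ≤ p) (hsup : AuxSupply W p) (M : ℕ) (h2M : 2 ∣ M)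
    (hMsq : Squarefree M)
    (hunr : ((W.map (Int.castRingHom ℚ)).residualGaloisRepOf p hcard₁ hker).IsUnramifiedAt 2)
    (hres : W.IsResiduallyModularOfLevel p M) :
    W.IsResiduallyModularOfLevel p (M / 2) := by
  have hp : p.Prime := Fact.out
  have hp2 : p ≠ 2 := by omega
  obtain ⟨h1, h2⟩ := lower_two_of_auxSupply p hp2 W hΔ hW hcard₁ hker hirr hsup M h2M hMsq hunr
    hres
  by_cases h3M : 3 ∣ M
  · exact h1 h3M
  · have hres3 := h2 h3M
    have h3M' : ¬ 3 ∣ M / 2 := fun hd => h3M (hd.trans (Nat.div_dvd_of_dvd h2M))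
    have hsq2 : Squarefree (M / 2) := hMsq.squarefree_of_dvd (Nat.div_dvd_of_dvd h2M)
    have hsq3 : Squarefree (M / 2 * 3) := squarefree_mul_prime hsq2 Nat.prime_three h3M'
    have h3p : 3 ≠ p := by omega
    have hunr3 : ((W.map (Int.castRingHom ℚ)).residualGaloisRepOf p hcard₁ hker).IsUnramifiedAt
        3 := by
      refine isUnramifiedAt_of_resMod p hp2 W hΔ hcard₁ hker hirr hMsq.ne_zero hres
        Nat.prime_three ?_
      intro hd
      rcases (Nat.Prime.dvd_mul Nat.prime_three).1 hd with h | h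
      · exact h3M h
      · exact h3p ((Nat.prime_dvd_prime_iff_eq Nat.prime_three hp).1 h)
    by_contra hnot
    have hnot' : ¬ W.IsResiduallyModularOfLevel p (M / 2 * 3 / 3) := by
      rw [Nat.mul_div_cancel _ (by norm_num : 0 < 3)]
      exact hnot
    have h31 := (Fermat.Agent.GB.A.caseA38 p hp5 W hΔ hW hcard₁ hker hirr (M / 2 * 3) 3
      Nat.prime_three (by norm_num) h3p (Dvd.intro_left _ rfl) hsq3 hunr3 hres3 hnot').1
    exact three_mod_ne_one hp hp2 h31

include hΔ hW hirr in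
/-- **the minimal-level binder `hSg` of CASE B at `5 ≤ p`, ALL primes `ℓ ≠ p` incl. `ℓ = 2`**: at
a minimal level `M` every prime `ℓ ≠ p` of `M` at which `ρ̄` is unramified is `≡ 1 (mod p)` with
scalar Frobenius. -/
theorem hSg_of_minimal_five_le (hp5 : 5 ≤ p) (hsup : AuxSupply W p) (M : ℕ) (hMsq : Squarefree M)
    (hres : W.IsResiduallyModularOfLevel p M)
    (hmin : ∀ m : ℕ, m ∣ M → m ≠ M → ¬ W.IsResiduallyModularOfLevel p m) :
    ∀ ℓ : ℕ, ℓ.Prime → ℓ ∣ M → ℓ ≠ p →
      ¬ ((W.map (Int.castRingHom ℚ)).residualGaloisRepOf p hcard₁ hker).IsUnramifiedAt ℓ ∨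
        (ℓ % p = 1 ∧ ScalarFrob38 W p ℓ) := by
  intro ℓ hℓ hℓM hℓp
  by_cases hunr :
      ((W.map (Int.castRingHom ℚ)).residualGaloisRepOf p hcard₁ hker).IsUnramifiedAt ℓ
  swap
  · exact Or.inl hunr
  right
  have hM0 : M ≠ 0 := hMsq.ne_zero
  have hne : M / ℓ ≠ M := by
    intro h
    have h1 : M / ℓ * ℓ = M := Nat.div_mul_cancel hℓM
    rw [h] at h1
    have h2 : M * ℓ = M * 1 := by rw [h1, mul_one]
    exact hℓ.one_lt.ne' (Nat.eq_of_mul_eq_mul_left (Nat.pos_of_ne_zero hM0) h2)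
  have hnot : ¬ W.IsResiduallyModularOfLevel p (M / ℓ) := hmin _ (Nat.div_dvd_of_dvd hℓM) hne
  by_cases hℓ2 : ℓ = 2
  · subst hℓ2
    exact absurd (lower_two_five_le p W hΔ hW hcard₁ hker hirr hp5 hsup M hℓM hMsq hunr hres) hnot
  · exact Fermat.Agent.GB.A.caseA38 p hp5 W hΔ hW hcard₁ hker hirr M ℓ hℓ hℓ2 hℓp hℓM hMsq hunr
      hres hnot

include hp2 hΔ hW hirr in
/-- **the minimal-level binder `hSg` at `p = 3`** (stated for every odd `p`, the primes `ℓ ≥ 5`):
at a minimal level every prime `ℓ ≥ 5`, `ℓ ≠ p`, of `M` at which `ρ̄` is unramified is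
`≡ 1 (mod p)` with scalar Frobenius. -/
theorem hSg_of_minimal_of_five_le_prime (hsup : AuxSupply W p) (M : ℕ) (hMsq : Squarefree M)
    (hres : W.IsResiduallyModularOfLevel p M)
    (hmin : ∀ m : ℕ, m ∣ M → m ≠ M → ¬ W.IsResiduallyModularOfLevel p m) :
    ∀ ℓ : ℕ, ℓ.Prime → 5 ≤ ℓ → ℓ ∣ M → ℓ ≠ p →
      ¬ ((W.map (Int.castRingHom ℚ)).residualGaloisRepOf p hcard₁ hker).IsUnramifiedAt ℓ ∨
        (ℓ % p = 1 ∧ ScalarFrob38 W p ℓ) := by
  intro ℓ hℓ hℓ5 hℓM hℓp
  by_cases hunr :
      ((W.map (Int.castRingHom ℚ)).residualGaloisRepOf p hcard₁ hker).IsUnramifiedAt ℓ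
  swap
  · exact Or.inl hunr
  right
  have hM0 : M ≠ 0 := hMsq.ne_zero
  have hne : M / ℓ ≠ M := by
    intro h
    have h1 : M / ℓ * ℓ = M := Nat.div_mul_cancel hℓM
    rw [h] at h1
    have h2 : M * ℓ = M * 1 := by rw [h1, mul_one]
    exact hℓ.one_lt.ne' (Nat.eq_of_mul_eq_mul_left (Nat.pos_of_ne_zero hM0) h2)
  have hnot : ¬ W.IsResiduallyModularOfLevel p (M / ℓ) := hmin _ (Nat.div_dvd_of_dvd hℓM) hne
  exact caseA38_of_auxSupply_five_le p hp2 W hΔ hW hcard₁ hker hirr hsup M ℓ hℓ hℓ5 hℓp hℓM hMsq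
    hunr hres hnot

include hp2 hΔ hW hirr in
/-- **`ℓ = 2` at a minimal level containing `3`** (e.g. `p = 3 ∣ M`): `ρ̄` is ramified at `2`. -/
theorem not_isUnramifiedAt_two_of_minimal (hsup : AuxSupply W p) (M : ℕ) (hMsq : Squarefree M)
    (h2M : 2 ∣ M) (h3M : 3 ∣ M)
    (hres : W.IsResiduallyModularOfLevel p M)
    (hmin : ∀ m : ℕ, m ∣ M → m ≠ M → ¬ W.IsResiduallyModularOfLevel p m) :
    ¬ ((W.map (Int.castRingHom ℚ)).residualGaloisRepOf p hcard₁ hker).IsUnramifiedAt 2 := by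
  intro hunr
  have hM0 : M ≠ 0 := hMsq.ne_zero
  have hne : M / 2 ≠ M := by
    intro h
    have h1 : M / 2 * 2 = M := Nat.div_mul_cancel h2M
    rw [h] at h1
    omega
  exact hmin _ (Nat.div_dvd_of_dvd h2M) hne
    ((lower_two_of_auxSupply p hp2 W hΔ hW hcard₁ hker hirr hsup M h2M hMsq hunr hres).1 h3M)

end Main

end Fermat.Agent.GE8.LLQ.MinLevel
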