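/-
GATE-E / E8.3 LLQ (helper86): **the CASE A half of level lowering at `q ≠ p`, BINDER-FREE** —
`AuxJuggle` and `MinLevel` with the supply of removable auxiliary primes discharged by
E8.3b = helper90's chooser (`GE8/AuxR/Sigma.exists_aux_prime_not_dvd`) + helper10's remover
(`GE8/AuxR/Remove.isResiduallyModularOfLevel_of_mul_aux`).

For `W/ℤ` semistable, `Δ ≠ 0`, `p` ODD, `W[p]` irreducible:

* `removableStmt`, `auxSupply`;
* `caseA38`            : CASE A (Mazur's principle) in the S38 shape at EVERY `q ≠ p`; only the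
                         frame conditions `q = 2 → 3 ∣ M / q`, `q = 3 → 2 ∣ M / q` are left;
* `caseA38_five_le`    : none for `q ≥ 5` (this is GATE-B's `CaseA38` at `p = 3`);
* `lower`              : `q % p ≠ 1` ⟹ level `M / q`;
* `lower_two`, `lower_three` : at `q = 2`, `3` without frame condition (level `M / 2 · 3`, …);
* `lower_two_five_le`  : `5 ≤ p`, `q = 2` ⟹ level `M / 2`, no condition at all;
* `hSg_of_minimal_five_le` : `5 ≤ p`: the minimal-level binder `hSg` of GATE-B's CASE B for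
                         GENERAL `W`, ALL primes of the level incl. `2`;
* `hSg_of_minimal_of_five_le_prime`, `not_isUnramifiedAt_two_of_minimal` : the `p = 3` forms.
-/
import Mathlib
import Fermat.Agent.GE8.LLQ.MinLevel
import Fermat.Agent.GE8.AuxR.Remove

set_option autoImplicit false
set_option linter.unusedSectionVars false
set_option linter.unusedVariables false

noncomputable section

open WeierstrassCurve WeierstrassCurve.Affine WeierstrassCurve.Affine.Point
open scoped WeierstrassCurve.Affine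

namespace Fermat.Agent.GE8.LLQ.Final

open Fermat.Agent.GB.Top.S43Frey Fermat.Agent.GE8.LLQ.AuxJuggle Fermat.Agent.GE8.LLQ.MinLevel

/-- **E8.3b (remove)** in the `Prop` shape of `MinLevel` (helper10's `Remove.lean`). -/
theorem removableStmt : RemovableStmt := by
  intro W hΔ p _ hp2 hirr r hr hrp hgood har L hrL hres
  have hL : L ≠ 0 := fun h0 => hrL (h0 ▸ dvd_zero r)
  exact Fermat.Agent.GE8.AuxR.Remove.isResiduallyModularOfLevel_of_mul_aux hp2 hΔ hirr hL hr hrL
    hrp hgood har hres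

/-- **the supply of removable auxiliary primes, binder-free.** -/
theorem auxSupply (W : WeierstrassCurve ℤ) (hss : W.IsSemistableModel) (hΔ : W.Δ ≠ 0) (p : ℕ)
    [Fact p.Prime] (hp2 : p ≠ 2) (hirr : W.ModRepIsIrreducible p) : AuxSupply W p :=
  auxSupply_of_removable removableStmt W hss hΔ p hp2 hirr

section Main

variable (p : ℕ) [Fact p.Prime] (hp2 : p ≠ 2) (W : WeierstrassCurve ℤ) (hΔ : W.Δ ≠ 0)
  (hW : W.IsSemistableModel)
  (hcard₁ : Nat.card (Submodule.torsionBy ℤ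
    ((W.map (Int.castRingHom ℚ))⁄(AlgebraicClosure ℚ)).Point p) = p ^ 2)
  (hker : GaloisFactorsThroughFiniteLevel
    (WeierstrassCurve.Affine.Point.galoisRepModuleEnd (K := AlgebraicClosure ℚ) ℚ
      (W.map (Int.castRingHom ℚ)) p))
  (hirr : W.ModRepIsIrreducible p)

include hp2 hΔ hW hirr in
/-- **CASE A (Mazur's principle) for every odd `p` and every `q ≠ p`**, frozen S38 binders. -/
theorem caseA38 (M q : ℕ) (hq : q.Prime) (hqp : q ≠ p) (hqM : q ∣ M) (hMsq : Squarefree M)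
    (h2 : q = 2 → 3 ∣ M / q) (h3 : q = 3 → 2 ∣ M / q)
    (hunr : ((W.map (Int.castRingHom ℚ)).residualGaloisRepOf p hcard₁ hker).IsUnramifiedAt q)
    (hres : W.IsResiduallyModularOfLevel p M)
    (hnot : ¬ W.IsResiduallyModularOfLevel p (M / q)) :
    q % p = 1 ∧ ScalarFrob38 W p q :=
  caseA38_of_auxSupply p hp2 W hΔ hW hcard₁ hker hirr (auxSupply W hW hΔ p hp2 hirr) M q hq hqp
    hqM hMsq h2 h3 hunr hres hnot

include hp2 hΔ hW hirr in
/-- **`CaseA38` at every odd `p` for `q ≥ 5`** — no side condition. -/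
theorem caseA38_five_le (M q : ℕ) (hq : q.Prime) (hq5 : 5 ≤ q) (hqp : q ≠ p) (hqM : q ∣ M)
    (hMsq : Squarefree M)
    (hunr : ((W.map (Int.castRingHom ℚ)).residualGaloisRepOf p hcard₁ hker).IsUnramifiedAt q)
    (hres : W.IsResiduallyModularOfLevel p M)
    (hnot : ¬ W.IsResiduallyModularOfLevel p (M / q)) :
    q % p = 1 ∧ ScalarFrob38 W p q :=
  caseA38_of_auxSupply_five_le p hp2 W hΔ hW hcard₁ hker hirr (auxSupply W hW hΔ p hp2 hirr) M q
    hq hq5 hqp hqM hMsq hunr hres hnot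

include hp2 hΔ hW hirr in
/-- **Mazur's principle proper**: `q ≢ 1 (mod p)` ⟹ the level is lowered at `q`. -/
theorem lower (M q : ℕ) (hq : q.Prime) (hqp : q ≠ p) (hqM : q ∣ M) (hMsq : Squarefree M)
    (h2 : q = 2 → 3 ∣ M / q) (h3 : q = 3 → 2 ∣ M / q)
    (hunr : ((W.map (Int.castRingHom ℚ)).residualGaloisRepOf p hcard₁ hker).IsUnramifiedAt q)
    (hres : W.IsResiduallyModularOfLevel p M) (hq1 : q % p ≠ 1) :
    W.IsResiduallyModularOfLevel p (M / q) :=
  lower_of_auxSupply p hp2 W hΔ hW hcard₁ hker hirr (auxSupply W hW hΔ p hp2 hirr) M q hq hqp hqM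
    hMsq h2 h3 hunr hres hq1

include hp2 hΔ hW hirr in
/-- **`q = 2`, no frame condition.** -/
theorem lower_two (M : ℕ) (h2M : 2 ∣ M) (hMsq : Squarefree M)
    (hunr : ((W.map (Int.castRingHom ℚ)).residualGaloisRepOf p hcard₁ hker).IsUnramifiedAt 2)
    (hres : W.IsResiduallyModularOfLevel p M) :
    (3 ∣ M → W.IsResiduallyModularOfLevel p (M / 2)) ∧
      (¬ 3 ∣ M → W.IsResiduallyModularOfLevel p (M / 2 * 3)) :=
  lower_two_of_auxSupply p hp2 W hΔ hW hcard₁ hker hirr (auxSupply W hW hΔ p hp2 hirr) M h2M hMsq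
    hunr hres

include hp2 hΔ hW hirr in
/-- **`q = 3 ≠ p`, no frame condition.** -/
theorem lower_three (hp3 : p ≠ 3) (M : ℕ) (h3M : 3 ∣ M) (hMsq : Squarefree M)
    (hunr : ((W.map (Int.castRingHom ℚ)).residualGaloisRepOf p hcard₁ hker).IsUnramifiedAt 3)
    (hres : W.IsResiduallyModularOfLevel p M) :
    (2 ∣ M → W.IsResiduallyModularOfLevel p (M / 3)) ∧
      (¬ 2 ∣ M → W.IsResiduallyModularOfLevel p (M / 3 * 2)) :=
  lower_three_of_auxSupply p hp2 W hΔ hW hcard₁ hker hirr (auxSupply W hW hΔ p hp2 hirr) hp3 M h3M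
    hMsq hunr hres

include hΔ hW hirr in
/-- **`5 ≤ p`, `q = 2`**: the level drops to `M / 2`, no condition. -/
theorem lower_two_five_le (hp5 : 5 ≤ p) (M : ℕ) (h2M : 2 ∣ M) (hMsq : Squarefree M)
    (hunr : ((W.map (Int.castRingHom ℚ)).residualGaloisRepOf p hcard₁ hker).IsUnramifiedAt 2)
    (hres : W.IsResiduallyModularOfLevel p M) :
    W.IsResiduallyModularOfLevel p (M / 2) :=
  MinLevel.lower_two_five_le p W hΔ hW hcard₁ hker hirr hp5
    (auxSupply W hW hΔ p (by omega) hirr) M h2M hMsq hunr hres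

include hΔ hW hirr in
/-- **the minimal-level binder `hSg` of CASE B for general `W`, `5 ≤ p`, all primes incl. `2`.** -/
theorem hSg_of_minimal_five_le (hp5 : 5 ≤ p) (M : ℕ) (hMsq : Squarefree M)
    (hres : W.IsResiduallyModularOfLevel p M)
    (hmin : ∀ m : ℕ, m ∣ M → m ≠ M → ¬ W.IsResiduallyModularOfLevel p m) :
    ∀ ℓ : ℕ, ℓ.Prime → ℓ ∣ M → ℓ ≠ p →
      ¬ ((W.map (Int.castRingHom ℚ)).residualGaloisRepOf p hcard₁ hker).IsUnramifiedAt ℓ ∨
        (ℓ % p = 1 ∧ ScalarFrob38 W p ℓ) :=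
  MinLevel.hSg_of_minimal_five_le p W hΔ hW hcard₁ hker hirr hp5
    (auxSupply W hW hΔ p (by omega) hirr) M hMsq hres hmin

include hp2 hΔ hW hirr in
/-- **the minimal-level binder `hSg` at every odd `p` (in particular `p = 3`), primes `ℓ ≥ 5`.** -/
theorem hSg_of_minimal_of_five_le_prime (M : ℕ) (hMsq : Squarefree M)
    (hres : W.IsResiduallyModularOfLevel p M)
    (hmin : ∀ m : ℕ, m ∣ M → m ≠ M → ¬ W.IsResiduallyModularOfLevel p m) :
    ∀ ℓ : ℕ, ℓ.Prime → 5 ≤ ℓ → ℓ ∣ M → ℓ ≠ p →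
      ¬ ((W.map (Int.castRingHom ℚ)).residualGaloisRepOf p hcard₁ hker).IsUnramifiedAt ℓ ∨
        (ℓ % p = 1 ∧ ScalarFrob38 W p ℓ) :=
  MinLevel.hSg_of_minimal_of_five_le_prime p hp2 W hΔ hW hcard₁ hker hirr
    (auxSupply W hW hΔ p hp2 hirr) M hMsq hres hmin

include hp2 hΔ hW hirr in
/-- **`ℓ = 2` at a minimal level containing `3`** (e.g. `p = 3 ∣ M`): `ρ̄` is ramified at `2`. -/
theorem not_isUnramifiedAt_two_of_minimal (M : ℕ) (hMsq : Squarefree M) (h2M : 2 ∣ M)
    (h3M : 3 ∣ M) (hres : W.IsResiduallyModularOfLevel p M)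
    (hmin : ∀ m : ℕ, m ∣ M → m ≠ M → ¬ W.IsResiduallyModularOfLevel p m) :
    ¬ ((W.map (Int.castRingHom ℚ)).residualGaloisRepOf p hcard₁ hker).IsUnramifiedAt 2 :=
  MinLevel.not_isUnramifiedAt_two_of_minimal p hp2 W hΔ hW hcard₁ hker hirr
    (auxSupply W hW hΔ p hp2 hirr) M hMsq h2M h3M hres hmin

end Main

end Fermat.Agent.GE8.LLQ.Final
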