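/-
GATE-E / E8.3 LLQ (helper86): **the frozen S38 at a fixed odd prime `p` for GENERAL semistable `W`
from CASE B at a minimal level** — the W-generic twin of GATE-B's `GB/Top/S43Min.s43_of_min`
(Frey-package form), with the CASE A half supplied by `GE8/LLQ/Final` for ALL primes of the level,
`2` included.

* `S38At p`            : the frozen statement S38 (`Fermat/Statements/S38.lean`) at the prime `p`;
* `CaseB38minE p`      : CASE B (Ihara avoidance, `q ≡ 1 (mod p)`, scalar Frobenius) at a MINIMAL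
                         level, general `W`, NO transvection binder, NO `5 ≤ p`, NO `q ≠ 2`
                         (GATE-B's `PinnedMin.CaseB38min` minus `htr`, plus the minimality binder);
* `HSgSupply p`        : the CASE A half: at a minimal level every prime `ℓ ≠ p` of the level is
                         ramified or `≡ 1 (mod p)` with scalar Frobenius;
* `s38At_of_min`       : `HSgSupply p → CaseB38minE p → S38At p` (pass to a minimal level);
* `hSgSupply_five_le`  : `HSgSupply p` for `5 ≤ p`, binder-free (`Final.hSg_of_minimal_five_le`);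
* **`s38At_five_le`**  : `5 ≤ p → CaseB38minE p → S38At p` — at `p = 5` (and every `p ≥ 5`) the
                         frozen S38 for general `W`, ALL `q ≠ p` incl. `q = 2`, is reduced to
                         CASE B at a minimal level;
* `LLPThreeStmt`, `hSgSupply_three`, `s38At_three` : at `p = 3` the same, with one more input:
                         E8.4 at `3` in the form "a `3` added to a level prime to `3` can be
                         removed again" (needed only for `ℓ = 2`, `3 ∤ M`).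
-/
import Mathlib
import Fermat.Agent.GE8.LLQ.Final

set_option autoImplicit false
set_option linter.unusedSectionVars false
set_option linter.unusedVariables false

noncomputable section

open WeierstrassCurve WeierstrassCurve.Affine WeierstrassCurve.Affine.Point
open scoped WeierstrassCurve.Affine

namespace Fermat.Agent.GE8.LLQ.S38Min

open Fermat.Agent.GB.Top.S43Frey

/-- **the frozen statement S38 at the prime `p`.** -/
def S38At (p : ℕ) [Fact p.Prime] : Prop :=
  ∀ (_ : p ≠ 2) (W : WeierstrassCurve ℤ) (_ : W.Δ ≠ 0) (_ : W.IsSemistableModel)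
    (hcard₁ : Nat.card (Submodule.torsionBy ℤ
      ((W.map (Int.castRingHom ℚ))⁄(AlgebraicClosure ℚ)).Point p) = p ^ 2)
    (hker : GaloisFactorsThroughFiniteLevel
      (WeierstrassCurve.Affine.Point.galoisRepModuleEnd (K := AlgebraicClosure ℚ) ℚ
        (W.map (Int.castRingHom ℚ)) p))
    (_ : W.ModRepIsIrreducible p) (M q : ℕ) (_ : q.Prime) (_ : q ≠ p)
    (_ : q ∣ M) (_ : ¬ q ^ 2 ∣ M) (_ : Squarefree M)
    (_ : ((W.map (Int.castRingHom ℚ)).residualGaloisRepOf p hcard₁ hker).IsUnramifiedAt q)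
    (_ : W.IsResiduallyModularOfLevel p M),
    W.IsResiduallyModularOfLevel p (M / q)

/-- **CASE B at a minimal level, general `W`, at the prime `p`**: `q ≡ 1 (mod p)` with scalar
Frobenius, every prime `ℓ ≠ p` of the level ramified or `≡ 1 (mod p)` with scalar Frobenius, no
proper divisor of the level is a level of `ρ̄`.  (No transvection binder: `habs` and `hTW` are
available from `GE8/Irr2`.) -/
def CaseB38minE (p : ℕ) [Fact p.Prime] : Prop :=
  ∀ (W : WeierstrassCurve ℤ) (_ : W.Δ ≠ 0) (_ : W.IsSemistableModel)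
    (hcard₁ : Nat.card (Submodule.torsionBy ℤ
      ((W.map (Int.castRingHom ℚ))⁄(AlgebraicClosure ℚ)).Point p) = p ^ 2)
    (hker : GaloisFactorsThroughFiniteLevel
      (WeierstrassCurve.Affine.Point.galoisRepModuleEnd (K := AlgebraicClosure ℚ) ℚ
        (W.map (Int.castRingHom ℚ)) p))
    (_ : W.ModRepIsIrreducible p) (M q : ℕ) (_ : q.Prime) (_ : q ≠ p)
    (_ : q ∣ M) (_ : Squarefree M)
    (_ : ((W.map (Int.castRingHom ℚ)).residualGaloisRepOf p hcard₁ hker).IsUnramifiedAt q)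
    (_ : W.IsResiduallyModularOfLevel p M)
    (_ : q % p = 1) (_ : ScalarFrob38 W p q)
    (_ : ∀ ℓ : ℕ, ℓ.Prime → ℓ ∣ M → ℓ ≠ p →
      ¬ ((W.map (Int.castRingHom ℚ)).residualGaloisRepOf p hcard₁ hker).IsUnramifiedAt ℓ ∨
        (ℓ % p = 1 ∧ ScalarFrob38 W p ℓ))
    (_ : ∀ m : ℕ, m ∣ M → m ≠ M → ¬ W.IsResiduallyModularOfLevel p m),
    W.IsResiduallyModularOfLevel p (M / q)

/-- **the CASE A half at a minimal level**, at the prime `p`. -/
def HSgSupply (p : ℕ) [Fact p.Prime] : Prop :=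
  ∀ (W : WeierstrassCurve ℤ) (_ : W.Δ ≠ 0) (_ : W.IsSemistableModel)
    (hcard₁ : Nat.card (Submodule.torsionBy ℤ
      ((W.map (Int.castRingHom ℚ))⁄(AlgebraicClosure ℚ)).Point p) = p ^ 2)
    (hker : GaloisFactorsThroughFiniteLevel
      (WeierstrassCurve.Affine.Point.galoisRepModuleEnd (K := AlgebraicClosure ℚ) ℚ
        (W.map (Int.castRingHom ℚ)) p))
    (_ : W.ModRepIsIrreducible p) (M : ℕ) (_ : Squarefree M)
    (_ : W.IsResiduallyModularOfLevel p M)
    (_ : ∀ m : ℕ, m ∣ M → m ≠ M → ¬ W.IsResiduallyModularOfLevel p m),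
    ∀ ℓ : ℕ, ℓ.Prime → ℓ ∣ M → ℓ ≠ p →
      ¬ ((W.map (Int.castRingHom ℚ)).residualGaloisRepOf p hcard₁ hker).IsUnramifiedAt ℓ ∨
        (ℓ % p = 1 ∧ ScalarFrob38 W p ℓ)

/-- a proper quotient `N / q` of a positive `N` by a prime divisor is not `N`. -/
theorem div_prime_ne_self {N q : ℕ} (hN : 0 < N) (hq : q.Prime) (hqN : q ∣ N) : N / q ≠ N := by
  intro h
  have h1 : N / q * q = N := Nat.div_mul_cancel hqN
  rw [h] at h1
  have h2 : N * q = N * 1 := by rw [h1, mul_one]
  exact hq.one_lt.ne' (Nat.eq_of_mul_eq_mul_left hN h2)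

/-- **S38 at `p` from the CASE A half and CASE B at a minimal level** (W-generic twin of
`GB/Top/S43Min.s43_of_min`). -/
theorem s38At_of_min (p : ℕ) [Fact p.Prime] (hS : HSgSupply p) (hB : CaseB38minE p) :
    S38At p := by
  intro hp2 W hΔ hW hcard₁ hker hirr M q hq hqp hqM hq2 hM hunr hres
  classical
  have hM0 : M ≠ 0 := hM.ne_zero
  -- a minimal level `N₀ ∣ M`
  have hex : ∃ n, n ∣ M ∧ W.IsResiduallyModularOfLevel p n := ⟨M, dvd_rfl, hres⟩
  obtain ⟨N₀, ⟨hN₀M, hN₀res⟩, hmin⟩ : ∃ N₀, (N₀ ∣ M ∧ W.IsResiduallyModularOfLevel p N₀) ∧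
      ∀ m, m ∣ M → W.IsResiduallyModularOfLevel p m → N₀ ≤ m :=
    ⟨Nat.find hex, Nat.find_spec hex, fun m h1 h2 => Nat.find_min' hex ⟨h1, h2⟩⟩
  have hN₀pos : 0 < N₀ := Nat.pos_of_dvd_of_pos hN₀M (Nat.pos_of_ne_zero hM0)
  have hN₀sq : Squarefree N₀ := hM.squarefree_of_dvd hN₀M
  have hmin' : ∀ m : ℕ, m ∣ N₀ → m ≠ N₀ → ¬ W.IsResiduallyModularOfLevel p m := by
    intro m hm hne hmodm
    have h1 : N₀ ≤ m := hmin m (hm.trans hN₀M) hmodm
    exact hne (le_antisymm (Nat.le_of_dvd hN₀pos hm) h1)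
  have hMq0 : M / q ≠ 0 := (Nat.div_ne_zero_iff_of_dvd hqM).2 ⟨hM0, hq.ne_zero⟩
  by_cases hq0 : q ∣ N₀
  · exfalso
    have hSg := hS W hΔ hW hcard₁ hker hirr N₀ hN₀sq hN₀res hmin'
    rcases hSg q hq hq0 hqp with h | ⟨h1, hs⟩
    · exact h hunr
    · have hlow := hB W hΔ hW hcard₁ hker hirr N₀ q hq hqp hq0 hN₀sq hunr hN₀res h1 hs hSg hmin'
      exact hmin' (N₀ / q) (Nat.div_dvd_of_dvd hq0) (div_prime_ne_self hN₀pos hq hq0) hlow
  · have hcop : Nat.Coprime N₀ q := ((Nat.Prime.coprime_iff_not_dvd hq).2 hq0).symm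
    have hd : N₀ ∣ M / q := by
      have h1 : N₀ ∣ M / q * q := by rw [Nat.div_mul_cancel hqM]; exact hN₀M
      exact hcop.dvd_of_dvd_mul_right h1
    exact Fermat.Agent.GB.Top.SplitT.isResiduallyModularOfLevel_of_dvd hN₀res hd hMq0

/-- **the CASE A half at `5 ≤ p`, binder-free.** -/
theorem hSgSupply_five_le (p : ℕ) [Fact p.Prime] (hp5 : 5 ≤ p) : HSgSupply p :=
  fun W hΔ hW hcard₁ hker hirr M hMsq hres hmin =>
    Fermat.Agent.GE8.LLQ.Final.hSg_of_minimal_five_le p W hΔ hW hcard₁ hker hirr hp5 M hMsq hres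
      hmin

/-- **the frozen S38 at every `p ≥ 5` (in particular `p = 5`) for general `W`, all `q ≠ p`
including `q = 2`, from CASE B at a minimal level.** -/
theorem s38At_five_le (p : ℕ) [Fact p.Prime] (hp5 : 5 ≤ p) (hB : CaseB38minE p) : S38At p :=
  s38At_of_min p (hSgSupply_five_le p hp5) hB

/-! ### `p = 3` -/

section Three

variable [Fact (Nat.Prime 3)]

/-- **E8.4 at `3`, the form needed by E8.3**: `ρ̄_{W,3}` comes from a level `N₀` prime to `3`
(so it is finite at `3`); then a `3` in a level `L · 3`, `3 ∤ L`, can be removed. -/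
def LLPThreeStmt : Prop :=
  ∀ (W : WeierstrassCurve ℤ) (_ : W.Δ ≠ 0) (_ : W.IsSemistableModel)
    (_ : W.ModRepIsIrreducible 3) (L N₀ : ℕ) (_ : ¬ 3 ∣ L) (_ : ¬ 3 ∣ N₀)
    (_ : W.IsResiduallyModularOfLevel 3 N₀) (_ : W.IsResiduallyModularOfLevel 3 (L * 3)),
    W.IsResiduallyModularOfLevel 3 L

/-- a prime different from `2` and `3` is at least `5`. -/
theorem five_le_of_prime {ℓ : ℕ} (hℓ : ℓ.Prime) (h2 : ℓ ≠ 2) (h3 : ℓ ≠ 3) : 5 ≤ ℓ := by
  by_contra h
  have h5 : ℓ < 5 := Nat.lt_of_not_ge h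
  have h0 := hℓ.two_le
  interval_cases ℓ
  · exact h2 rfl
  · exact h3 rfl
  · exact absurd hℓ (by decide)

/-- **the CASE A half at `p = 3`**, from E8.4 at `3`. -/
theorem hSgSupply_three (hLLP : LLPThreeStmt) : HSgSupply 3 := by
  intro W hΔ hW hcard₁ hker hirr M hMsq hres hmin ℓ hℓ hℓM hℓp
  by_cases hℓ2 : ℓ = 2
  · subst hℓ2
    left
    intro hunr
    have hM0 : M ≠ 0 := hMsq.ne_zero
    by_cases h3M : 3 ∣ M
    · exact Fermat.Agent.GE8.LLQ.Final.not_isUnramifiedAt_two_of_minimal 3 (by norm_num) W hΔ hW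
        hcard₁ hker hirr M hMsq hℓM h3M hres hmin hunr
    · have hres3 := (Fermat.Agent.GE8.LLQ.Final.lower_two 3 (by norm_num) W hΔ hW hcard₁ hker hirr
        M hℓM hMsq hunr hres).2 h3M
      have h3M' : ¬ 3 ∣ M / 2 := fun hd => h3M (hd.trans (Nat.div_dvd_of_dvd hℓM))
      have hlow := hLLP W hΔ hW hirr (M / 2) M h3M' h3M hres hres3
      exact hmin (M / 2) (Nat.div_dvd_of_dvd hℓM)
        (div_prime_ne_self (Nat.pos_of_ne_zero hM0) Nat.prime_two hℓM) hlow
  · exact Fermat.Agent.GE8.LLQ.Final.hSg_of_minimal_of_five_le_prime 3 (by norm_num) W hΔ hW hcard₁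
      hker hirr M hMsq hres hmin ℓ hℓ (five_le_of_prime hℓ hℓ2 hℓp) hℓM hℓp

/-- **the frozen S38 at `p = 3` for general `W`** from E8.4 at `3` and CASE B at a minimal
level. -/
theorem s38At_three (hLLP : LLPThreeStmt) (hB : CaseB38minE 3) : S38At 3 :=
  s38At_of_min 3 (hSgSupply_three hLLP) hB

end Three

end Fermat.Agent.GE8.LLQ.S38Min
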