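/-
GATE-E / E8.3c TOP (helper86): **`S38Min.CaseB38minE p` (CASE B at a minimal level, GENERAL
semistable `W`, fixed odd prime `p`) from the two contradiction forms of CASE B AT THE PRIME `p`**
— the forms the Taylor–Wiles provider produces (`GB/B9/ProviderFlat/Top.flatF_of_levelStmt`,
`GB/B9/ProviderNew/Top.newFO_of_levelStmtNew` for `5 ≤ p`; their `p = 3` twins, which carry an
AUXILIARY prime `r ≡ 11 (mod 12)`).

Everything that is not a Taylor–Wiles level is discharged here, once: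

* the binder `q ≠ 2` of GATE-B (from `q ≡ 1 (mod p)`), `hno` / `hX` (from the minimality binder);
* the split at `p` : `p ∤ M` (flat form) / `p ∣ M` and `W` multiplicative at `p` (`p`-new form,
  residual ordinarity `hord` = `GE8/LLP/OrdAtW.ordAt_of_semistable`) / `p ∣ M` and `W` good at `p`
  (impossible at a minimal level: E8.4, good case, `hLLP`);
* the transvection binder `htr` (`GE8/Irr2`: `Final3.pThreeStmt`, `P5/Final.hasTransvectionModP_five`)
  is an input of the final plug, NOT of CASE B;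
* at `p = 3` : the choice of the auxiliary prime `r ∤ M p`, `r ≡ 11 (mod 12)`, `W` good at `r`,
  `a_r(W)² ≢ (r + 1)² (mod p)` (helper90 `AuxR/Sigma.exists_aux_prime_not_dvd`) and the transport of
  `hres`, `hno`, `hX` to the level `M * r` (helper10 `AuxR/Remove`).

Statements (all `Prop`s at a FIXED prime `p`, no `5 ≤ p`, no `q ≠ 2`):

* `FlatFAt p`, `NewFOAt p`        : `SplitMin.CaseB38minFlatF`, `SplitMinOrd.CaseB38minNewFO` at `p`;
* `FlatFAuxAt p`, `NewFOAuxAt p`  : the same with an auxiliary prime `r` offered to the provider — the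
  provider may use the level `M` or the level `M * r`; every true fact about `r` is a binder;
* `flatFAt_of_flatF`, `newFOAt_of_newFO` (`5 ≤ p`), `flatFAuxAt_of_flatFAt`, `newFOAuxAt_of_newFOAt`;
* **`caseB38minE_of_aux`**   : `FlatFAuxAt p → NewFOAuxAt p → htr → hord → hLLP → CaseB38minE p`;
* **`caseB38minE_of_split`** : `FlatFAt p → NewFOAt p → htr → hord → hLLP → CaseB38minE p`;
* **`caseB38minE_five_le`**  : `5 ≤ p`, from GATE-B's `CaseB38minFlatF`, `CaseB38minNewFO`.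
-/
import Mathlib
import Fermat.Agent.GE8.LLQ.S38Min
import Fermat.Agent.GB.Top.SplitMinOrd

set_option autoImplicit false
set_option linter.unusedSectionVars false
set_option linter.unusedVariables false

noncomputable section

open WeierstrassCurve WeierstrassCurve.Affine WeierstrassCurve.Affine.Point
open scoped WeierstrassCurve.Affine

namespace Fermat.Agent.GE8.LLQ.CaseBTop

open Fermat.Agent.GB.Top.S43Frey Fermat.Agent.GB.Top.FreyTwo.Transvection
open Fermat.Agent.GB.Top.SplitMin Fermat.Agent.GB.Top.SplitMinOrd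
open Fermat.Agent.GE8.LLQ.S38Min

/-! ### the statements at a fixed prime -/

/-- **the flat contradiction form of CASE B at the prime `p`** (`SplitMin.CaseB38minFlatF` at `p`,
without `5 ≤ p` and `q ≠ 2`). -/
def FlatFAt (p : ℕ) [Fact p.Prime] : Prop :=
  ∀ (W : WeierstrassCurve ℤ) (_ : W.Δ ≠ 0) (_ : W.IsSemistableModel)
    (hcard₁ : Nat.card (Submodule.torsionBy ℤ
      ((W.map (Int.castRingHom ℚ))⁄(AlgebraicClosure ℚ)).Point p) = p ^ 2)
    (hker : GaloisFactorsThroughFiniteLevel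
      (WeierstrassCurve.Affine.Point.galoisRepModuleEnd (K := AlgebraicClosure ℚ) ℚ
        (W.map (Int.castRingHom ℚ)) p))
    (_ : W.ModRepIsIrreducible p) (_ : HasTransvectionModP (W.map (Int.castRingHom ℚ)) p)
    (M q : ℕ) (_ : q.Prime) (_ : q ≠ p) (_ : q ∣ M) (_ : Squarefree M) (_ : ¬ p ∣ M)
    (_ : ((W.map (Int.castRingHom ℚ)).residualGaloisRepOf p hcard₁ hker).IsUnramifiedAt q)
    (_ : W.IsResiduallyModularOfLevel p M)
    (_ : ¬ W.IsResiduallyModularOfLevel p (M / q))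
    (_ : q % p = 1) (_ : ScalarFrob38 W p q)
    (_ : ∀ ℓ : ℕ, ℓ.Prime → ℓ ∣ M → ℓ ≠ p →
      ¬ ((W.map (Int.castRingHom ℚ)).residualGaloisRepOf p hcard₁ hker).IsUnramifiedAt ℓ ∨
        (ℓ % p = 1 ∧ ScalarFrob38 W p ℓ)),
    False

/-- **the `p`-new contradiction form of CASE B at the prime `p`, with the residual ordinarity
binder** (`SplitMinOrd.CaseB38minNewFO` at `p`, without `5 ≤ p` and `q ≠ 2`). -/
def NewFOAt (p : ℕ) [Fact p.Prime] : Prop :=
  ∀ (W : WeierstrassCurve ℤ) (_ : W.Δ ≠ 0) (_ : W.IsSemistableModel)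
    (hcard₁ : Nat.card (Submodule.torsionBy ℤ
      ((W.map (Int.castRingHom ℚ))⁄(AlgebraicClosure ℚ)).Point p) = p ^ 2)
    (hker : GaloisFactorsThroughFiniteLevel
      (WeierstrassCurve.Affine.Point.galoisRepModuleEnd (K := AlgebraicClosure ℚ) ℚ
        (W.map (Int.castRingHom ℚ)) p))
    (_ : W.ModRepIsIrreducible p) (_ : HasTransvectionModP (W.map (Int.castRingHom ℚ)) p)
    (_ : (GaloisRepAdic.ofResidualGaloisRep
      ((W.map (Int.castRingHom ℚ)).residualGaloisRepOf p hcard₁ hker)).IsOrdinaryAt p)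
    (M q : ℕ) (_ : q.Prime) (_ : q ≠ p) (_ : q ∣ M) (_ : Squarefree M) (_ : p ∣ M)
    (_ : ¬ W.IsResiduallyModularOfLevel p (M / p))
    (_ : ((W.map (Int.castRingHom ℚ)).residualGaloisRepOf p hcard₁ hker).IsUnramifiedAt q)
    (_ : W.IsResiduallyModularOfLevel p M)
    (_ : ¬ W.IsResiduallyModularOfLevel p (M / q))
    (_ : q % p = 1) (_ : ScalarFrob38 W p q)
    (_ : ∀ ℓ : ℕ, ℓ.Prime → ℓ ∣ M → ℓ ≠ p →
      ¬ ((W.map (Int.castRingHom ℚ)).residualGaloisRepOf p hcard₁ hker).IsUnramifiedAt ℓ ∨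
        (ℓ % p = 1 ∧ ScalarFrob38 W p ℓ)),
    False

/-- **the flat contradiction form with an AUXILIARY prime `r`** : `r ∤ M p`, `r ≡ 11 (mod 12)`,
`W` good at `r`, `a_r(W)² ≢ (r + 1)² (mod p)`; the level `M * r` is squarefree, residually modular,
and `M / q * r`  is not.  `M` itself is as in `FlatFAt` (the binder `hSg` is about the primes of `M`
only). -/
def FlatFAuxAt (p : ℕ) [Fact p.Prime] : Prop :=
  ∀ (W : WeierstrassCurve ℤ) (_ : W.Δ ≠ 0) (_ : W.IsSemistableModel)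
    (hcard₁ : Nat.card (Submodule.torsionBy ℤ
      ((W.map (Int.castRingHom ℚ))⁄(AlgebraicClosure ℚ)).Point p) = p ^ 2)
    (hker : GaloisFactorsThroughFiniteLevel
      (WeierstrassCurve.Affine.Point.galoisRepModuleEnd (K := AlgebraicClosure ℚ) ℚ
        (W.map (Int.castRingHom ℚ)) p))
    (_ : W.ModRepIsIrreducible p) (_ : HasTransvectionModP (W.map (Int.castRingHom ℚ)) p)
    (M q : ℕ) (_ : q.Prime) (_ : q ≠ p) (_ : q ∣ M) (_ : Squarefree M) (_ : ¬ p ∣ M)
    (_ : ((W.map (Int.castRingHom ℚ)).residualGaloisRepOf p hcard₁ hker).IsUnramifiedAt q)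
    (_ : W.IsResiduallyModularOfLevel p M)
    (_ : ¬ W.IsResiduallyModularOfLevel p (M / q))
    (_ : q % p = 1) (_ : ScalarFrob38 W p q)
    (_ : ∀ ℓ : ℕ, ℓ.Prime → ℓ ∣ M → ℓ ≠ p →
      ¬ ((W.map (Int.castRingHom ℚ)).residualGaloisRepOf p hcard₁ hker).IsUnramifiedAt ℓ ∨
        (ℓ % p = 1 ∧ ScalarFrob38 W p ℓ))
    (r : ℕ) (_ : r.Prime) (_ : r % 12 = 11) (_ : r ≠ p) (_ : ¬ r ∣ M)
    (_ : W.IsGoodPrimeFor r)
    (_ : ((W.apOfModel r : ℤ) : ZMod p) ^ 2 ≠ ((r : ZMod p) + 1) ^ 2)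
    (_ : ((W.map (Int.castRingHom ℚ)).residualGaloisRepOf p hcard₁ hker).IsUnramifiedAt r)
    (_ : Squarefree (M * r))
    (_ : W.IsResiduallyModularOfLevel p (M * r))
    (_ : ¬ W.IsResiduallyModularOfLevel p (M / q * r)),
    False

/-- **the `p`-new contradiction form with an AUXILIARY prime `r`**. -/
def NewFOAuxAt (p : ℕ) [Fact p.Prime] : Prop :=
  ∀ (W : WeierstrassCurve ℤ) (_ : W.Δ ≠ 0) (_ : W.IsSemistableModel)
    (hcard₁ : Nat.card (Submodule.torsionBy ℤ
      ((W.map (Int.castRingHom ℚ))⁄(AlgebraicClosure ℚ)).Point p) = p ^ 2)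
    (hker : GaloisFactorsThroughFiniteLevel
      (WeierstrassCurve.Affine.Point.galoisRepModuleEnd (K := AlgebraicClosure ℚ) ℚ
        (W.map (Int.castRingHom ℚ)) p))
    (_ : W.ModRepIsIrreducible p) (_ : HasTransvectionModP (W.map (Int.castRingHom ℚ)) p)
    (_ : (GaloisRepAdic.ofResidualGaloisRep
      ((W.map (Int.castRingHom ℚ)).residualGaloisRepOf p hcard₁ hker)).IsOrdinaryAt p)
    (M q : ℕ) (_ : q.Prime) (_ : q ≠ p) (_ : q ∣ M) (_ : Squarefree M) (_ : p ∣ M)
    (_ : ¬ W.IsResiduallyModularOfLevel p (M / p))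
    (_ : ((W.map (Int.castRingHom ℚ)).residualGaloisRepOf p hcard₁ hker).IsUnramifiedAt q)
    (_ : W.IsResiduallyModularOfLevel p M)
    (_ : ¬ W.IsResiduallyModularOfLevel p (M / q))
    (_ : q % p = 1) (_ : ScalarFrob38 W p q)
    (_ : ∀ ℓ : ℕ, ℓ.Prime → ℓ ∣ M → ℓ ≠ p →
      ¬ ((W.map (Int.castRingHom ℚ)).residualGaloisRepOf p hcard₁ hker).IsUnramifiedAt ℓ ∨
        (ℓ % p = 1 ∧ ScalarFrob38 W p ℓ))
    (r : ℕ) (_ : r.Prime) (_ : r % 12 = 11) (_ : r ≠ p) (_ : ¬ r ∣ M)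
    (_ : W.IsGoodPrimeFor r)
    (_ : ((W.apOfModel r : ℤ) : ZMod p) ^ 2 ≠ ((r : ZMod p) + 1) ^ 2)
    (_ : ((W.map (Int.castRingHom ℚ)).residualGaloisRepOf p hcard₁ hker).IsUnramifiedAt r)
    (_ : Squarefree (M * r))
    (_ : W.IsResiduallyModularOfLevel p (M * r))
    (_ : ¬ W.IsResiduallyModularOfLevel p (M / q * r))
    (_ : ¬ W.IsResiduallyModularOfLevel p (M / p * r)),
    False

/-! ### arithmetic -/

/-- a prime `≡ 1 (mod p)`, `p` odd, is not `2`. -/
theorem ne_two_of_mod_eq_one {p q : ℕ} (hp : p.Prime) (hp2 : p ≠ 2) (hq1 : q % p = 1) : q ≠ 2 := by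
  rintro rfl
  have hp3 : 3 ≤ p := by
    have := hp.two_le
    omega
  rw [Nat.mod_eq_of_lt (by omega)] at hq1
  omega

/-! ### GATE-B's forms at `5 ≤ p` -/

/-- `SplitMin.CaseB38minFlatF ⟹ FlatFAt p` for `5 ≤ p`. -/
theorem flatFAt_of_flatF {p : ℕ} [Fact p.Prime] (hp5 : 5 ≤ p) (h : CaseB38minFlatF) :
    FlatFAt p := by
  intro W hΔ hW hcard₁ hker hirr htr M q hq hqp hqM hM hpM hunr hres hno hq1 hs hSg
  exact h p hp5 W hΔ hW hcard₁ hker hirr htr M q hq
    (ne_two_of_mod_eq_one (Fact.out : p.Prime) (by omega) hq1) hqp hqM hM hpM hunr hres hno hq1 hs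
    hSg

/-- `SplitMinOrd.CaseB38minNewFO ⟹ NewFOAt p` for `5 ≤ p`. -/
theorem newFOAt_of_newFO {p : ℕ} [Fact p.Prime] (hp5 : 5 ≤ p) (h : CaseB38minNewFO) :
    NewFOAt p := by
  intro W hΔ hW hcard₁ hker hirr htr hord M q hq hqp hqM hM hpM hX hunr hres hno hq1 hs hSg
  exact h p hp5 W hΔ hW hcard₁ hker hirr htr hord M q hq
    (ne_two_of_mod_eq_one (Fact.out : p.Prime) (by omega) hq1) hqp hqM hM hpM hX hunr hres hno hq1
    hs hSg

/-- a provider that does not need the auxiliary prime. -/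
theorem flatFAuxAt_of_flatFAt {p : ℕ} [Fact p.Prime] (h : FlatFAt p) : FlatFAuxAt p := by
  intro W hΔ hW hcard₁ hker hirr htr M q hq hqp hqM hM hpM hunr hres hno hq1 hs hSg r _ _ _ _ _ _
    _ _ _ _
  exact h W hΔ hW hcard₁ hker hirr htr M q hq hqp hqM hM hpM hunr hres hno hq1 hs hSg

/-- a provider that does not need the auxiliary prime. -/
theorem newFOAuxAt_of_newFOAt {p : ℕ} [Fact p.Prime] (h : NewFOAt p) : NewFOAuxAt p := by
  intro W hΔ hW hcard₁ hker hirr htr hord M q hq hqp hqM hM hpM hX hunr hres hno hq1 hs hSg r _ _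
    _ _ _ _ _ _ _ _ _
  exact h W hΔ hW hcard₁ hker hirr htr hord M q hq hqp hqM hM hpM hX hunr hres hno hq1 hs hSg

/-! ### the top -/

section Top

variable {p : ℕ} [hpF : Fact p.Prime]

/-- **CASE B at a minimal level for general `W` from the two contradiction forms with an auxiliary
prime**, the transvection supply, the residual ordinarity at a multiplicative `p`, and E8.4 (good
case) at squarefree levels. -/
theorem caseB38minE_of_aux (hp2 : p ≠ 2) (hflat : FlatFAuxAt p) (hnew : NewFOAuxAt p)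
    (htr : ∀ W : WeierstrassCurve ℤ, W.Δ ≠ 0 → W.IsSemistableModel → W.ModRepIsIrreducible p →
      HasTransvectionModP (W.map (Int.castRingHom ℚ)) p)
    (hord : ∀ W : WeierstrassCurve ℤ, W.Δ ≠ 0 → W.IsSemistableModel → (p : ℤ) ∣ W.Δ →
      ∀ (hcard₁ : Nat.card (Submodule.torsionBy ℤ
        ((W.map (Int.castRingHom ℚ))⁄(AlgebraicClosure ℚ)).Point p) = p ^ 2)
      (hker : GaloisFactorsThroughFiniteLevel
        (WeierstrassCurve.Affine.Point.galoisRepModuleEnd (K := AlgebraicClosure ℚ) ℚ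
          (W.map (Int.castRingHom ℚ)) p)),
      (GaloisRepAdic.ofResidualGaloisRep
        ((W.map (Int.castRingHom ℚ)).residualGaloisRepOf p hcard₁ hker)).IsOrdinaryAt p)
    (hLLP : ∀ W : WeierstrassCurve ℤ, W.Δ ≠ 0 → W.IsSemistableModel → W.ModRepIsIrreducible p →
      ¬ (p : ℤ) ∣ W.Δ → ∀ M : ℕ, Squarefree M → p ∣ M → W.IsResiduallyModularOfLevel p M →
        W.IsResiduallyModularOfLevel p (M / p)) :
    CaseB38minE p := by
  intro W hΔ hW hcard₁ hker hirr M q hq hqp hqM hM hunr hres hq1 hs hSg hmin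
  have hp : p.Prime := hpF.out
  have hM0 : M ≠ 0 := hM.ne_zero
  have hMpos : 0 < M := Nat.pos_of_ne_zero hM0
  have hno : ¬ W.IsResiduallyModularOfLevel p (M / q) :=
    hmin (M / q) (Nat.div_dvd_of_dvd hqM) (div_prime_ne_self hMpos hq hqM)
  exfalso
  -- the auxiliary prime
  have hMp0 : M * p ≠ 0 := mul_ne_zero hM0 hp.ne_zero
  obtain ⟨r, hr, hrMp, hr12, hrp, hgood, har⟩ :=
    Fermat.Agent.GE8.AuxR.Sigma.exists_aux_prime_not_dvd W hW hΔ hp2 hirr hMp0
  have hrM : ¬ r ∣ M := fun h => hrMp (h.mul_right p)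
  have hunr_r :
      ((W.map (Int.castRingHom ℚ)).residualGaloisRepOf p hcard₁ hker).IsUnramifiedAt r :=
    Fermat.Agent.GE8.LLQ.MinLevel.isUnramifiedAt_of_resMod p hp2 W hΔ hcard₁ hker hirr hM0 hres hr
      hrMp
  have hsqr : Squarefree (M * r) := by
    rw [Nat.squarefree_mul_iff]
    exact ⟨(Nat.Coprime.symm ((Nat.Prime.coprime_iff_not_dvd hr).2 hrM)), hM, hr.squarefree⟩
  have hresr : W.IsResiduallyModularOfLevel p (M * r) :=
    Fermat.Agent.GB.Top.SplitT.isResiduallyModularOfLevel_of_dvd hres (dvd_mul_right M r)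
      (mul_ne_zero hM0 hr.ne_zero)
  -- removing `r` again
  have hrem : ∀ L : ℕ, L ∣ M → W.IsResiduallyModularOfLevel p (L * r) →
      W.IsResiduallyModularOfLevel p L := by
    intro L hL h
    have hL0 : L ≠ 0 := fun h0 => hM0 (by rw [h0] at hL; exact Nat.eq_zero_of_zero_dvd hL)
    exact Fermat.Agent.GE8.AuxR.Remove.isResiduallyModularOfLevel_of_mul_aux hp2 hΔ hirr hL0
      hr (fun hrL => hrM (hrL.trans hL)) hrp hgood har h
  have hnor : ¬ W.IsResiduallyModularOfLevel p (M / q * r) := fun h =>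
    hno (hrem (M / q) (Nat.div_dvd_of_dvd hqM) h)
  by_cases hpM : p ∣ M
  · have hX : ¬ W.IsResiduallyModularOfLevel p (M / p) :=
      hmin (M / p) (Nat.div_dvd_of_dvd hpM) (div_prime_ne_self hMpos hp hpM)
    by_cases hpΔ : (p : ℤ) ∣ W.Δ
    · have hXr : ¬ W.IsResiduallyModularOfLevel p (M / p * r) := fun h =>
        hX (hrem (M / p) (Nat.div_dvd_of_dvd hpM) h)
      exact hnew W hΔ hW hcard₁ hker hirr (htr W hΔ hW hirr) (hord W hΔ hW hpΔ hcard₁ hker) M q hq
        hqp hqM hM hpM hX hunr hres hno hq1 hs hSg r hr hr12 hrp hrM hgood har hunr_r hsqr hresr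
        hnor hXr
    · exact hX (hLLP W hΔ hW hirr hpΔ M hM hpM hres)
  · exact hflat W hΔ hW hcard₁ hker hirr (htr W hΔ hW hirr) M q hq hqp hqM hM hpM hunr hres hno hq1
      hs hSg r hr hr12 hrp hrM hgood har hunr_r hsqr hresr hnor

/-- **CASE B at a minimal level for general `W` from the two contradiction forms at `p`** (no
auxiliary prime). -/
theorem caseB38minE_of_split (hp2 : p ≠ 2) (hflat : FlatFAt p) (hnew : NewFOAt p)
    (htr : ∀ W : WeierstrassCurve ℤ, W.Δ ≠ 0 → W.IsSemistableModel → W.ModRepIsIrreducible p →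
      HasTransvectionModP (W.map (Int.castRingHom ℚ)) p)
    (hord : ∀ W : WeierstrassCurve ℤ, W.Δ ≠ 0 → W.IsSemistableModel → (p : ℤ) ∣ W.Δ →
      ∀ (hcard₁ : Nat.card (Submodule.torsionBy ℤ
        ((W.map (Int.castRingHom ℚ))⁄(AlgebraicClosure ℚ)).Point p) = p ^ 2)
      (hker : GaloisFactorsThroughFiniteLevel
        (WeierstrassCurve.Affine.Point.galoisRepModuleEnd (K := AlgebraicClosure ℚ) ℚ
          (W.map (Int.castRingHom ℚ)) p)),
      (GaloisRepAdic.ofResidualGaloisRep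
        ((W.map (Int.castRingHom ℚ)).residualGaloisRepOf p hcard₁ hker)).IsOrdinaryAt p)
    (hLLP : ∀ W : WeierstrassCurve ℤ, W.Δ ≠ 0 → W.IsSemistableModel → W.ModRepIsIrreducible p →
      ¬ (p : ℤ) ∣ W.Δ → ∀ M : ℕ, Squarefree M → p ∣ M → W.IsResiduallyModularOfLevel p M →
        W.IsResiduallyModularOfLevel p (M / p)) :
    CaseB38minE p :=
  caseB38minE_of_aux hp2 (flatFAuxAt_of_flatFAt hflat) (newFOAuxAt_of_newFOAt hnew) htr hord hLLP

/-- **`CaseB38minE p` for `5 ≤ p` from GATE-B's two contradiction forms** (`GB/B9/ProviderFlat/Top`,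
`GB/B9/ProviderNew/Top`: both are theorems on main). -/
theorem caseB38minE_five_le (hp5 : 5 ≤ p) (hflat : CaseB38minFlatF) (hnew : CaseB38minNewFO)
    (htr : ∀ W : WeierstrassCurve ℤ, W.Δ ≠ 0 → W.IsSemistableModel → W.ModRepIsIrreducible p →
      HasTransvectionModP (W.map (Int.castRingHom ℚ)) p)
    (hord : ∀ W : WeierstrassCurve ℤ, W.Δ ≠ 0 → W.IsSemistableModel → (p : ℤ) ∣ W.Δ →
      ∀ (hcard₁ : Nat.card (Submodule.torsionBy ℤ
        ((W.map (Int.castRingHom ℚ))⁄(AlgebraicClosure ℚ)).Point p) = p ^ 2)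
      (hker : GaloisFactorsThroughFiniteLevel
        (WeierstrassCurve.Affine.Point.galoisRepModuleEnd (K := AlgebraicClosure ℚ) ℚ
          (W.map (Int.castRingHom ℚ)) p)),
      (GaloisRepAdic.ofResidualGaloisRep
        ((W.map (Int.castRingHom ℚ)).residualGaloisRepOf p hcard₁ hker)).IsOrdinaryAt p)
    (hLLP : ∀ W : WeierstrassCurve ℤ, W.Δ ≠ 0 → W.IsSemistableModel → W.ModRepIsIrreducible p →
      ¬ (p : ℤ) ∣ W.Δ → ∀ M : ℕ, Squarefree M → p ∣ M → W.IsResiduallyModularOfLevel p M →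
        W.IsResiduallyModularOfLevel p (M / p)) :
    CaseB38minE p :=
  caseB38minE_of_split (by omega) (flatFAt_of_flatF hp5 hflat) (newFOAt_of_newFO hp5 hnew) htr hord
    hLLP

end Top

end Fermat.Agent.GE8.LLQ.CaseBTop
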