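/-
GATE-E / E8.3 LLQ (helper86), follow-up of the audit (board 6754 §4(a)): **CASE A (Mazur's
principle) at ONE `(p, W, N', q)`**, `p` ANY odd prime, `q ≠ p` ANY prime (also `q = 2`), from
the FP triple (A3 + A4 + A5) at that `(p, N', q)` only.

`GB/A/A6/Toric.toricStmt_of_fpInputs` and `GB/A/A6/CaseA.caseA38_of` quantify their binders over
all `(p ≥ 5, q ≠ 2)`; their PROOFS use `5 ≤ p` only through `p ≠ 2` and never use `q ≠ 2`.  This
file re-runs both proofs with the binders localised, so that the FP triple can be supplied where it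
is available (levels without elliptic points: `GE8/LLQ/CaseASide.lean`).

* `FPAt p N' q h A` : the FP triple at one place `A ∣ q`;
* `toric_of_fpAt`   : `eigQ ≤ ker r₁ ⊓ ker r₂` at `A` (re-run of `toricStmt_of_fpInputs`);
* `caseA_of_toric`  : `q ≡ 1 (mod p)` and scalar Frobenius at `q` (re-run of `caseA38_of`);
* `caseA_of_fpAt`   : the two together, with helper79's `congr_all_of_cofinite` and helper84's
  `eigQ_ne_bot`.
-/
import Mathlib
import Fermat.Agent.GB.A.A6.Toric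

set_option autoImplicit false
set_option linter.unusedSectionVars false
set_option linter.unusedVariables false
set_option linter.style.haveILetI false

noncomputable section

open WeierstrassCurve WeierstrassCurve.Affine WeierstrassCurve.Affine.Point
open scoped WeierstrassCurve.Affine

namespace Fermat.Agent.GE8.LLQ.CaseACore

open AlgebraicCurve ModularCurve
open CuspForm ModularFormClass CongruenceSubgroup
open Fermat.Agent.GJ Fermat.Agent.GJ.KumGroup Fermat.Agent.GJ.Kum.KumType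
open Fermat.Agent.GK.UQ Fermat.Agent.GK.New Fermat.Agent.GK.Tate.KumHecke
open Fermat.Agent.GK.UqKronecker Fermat.Agent.GK.AL Fermat.Agent.GK.UTr
open Fermat.Agent.GJ.CycChar
open Fermat.Agent.GB.A Fermat.Agent.GB.A.A6.ECDet Fermat.Agent.GB.A.A6.EigQ
open Fermat.Agent.GB.A.A6.Killer Fermat.Agent.GB.A.A6.CaseA
open Fermat.Agent.GB.Top.S43Frey

local notation "GQ'" => (AlgebraicClosure ℚ ≃ₐ[ℚ] AlgebraicClosure ℚ)

/-- **the FP triple (A3 + A4 + A5) at ONE `(p, N', q)` and one place `A ∣ q`** — the body of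
`GB/A/A6/Toric.FPInputs`. -/
def FPAt (p N' q : ℕ) [Fact p.Prime] [NeZero N'] [Fact q.Prime] (h : ExactDvd q (N' * q))
    (A : ValuationSubring Kb) : Prop :=
  (∃ ObZero : Additive (Kum Kb (FK (N' * q)) p) → Prop,
      FP.NormHyp h A p ObZero ∧
      ∀ (ℓ : ℕ) (hℓ : ℓ.Prime) (hℓM : ¬ ℓ ∣ N' * q),
        ∀ y ∈ FP.invSub (M := N' * q) A p,
          ObZero (kumTl (N' * q) p hℓ hℓM y - ((ℓ + 1 : ℕ) : ZMod p) • y)) ∧
    FP.NodeHyp h A p ∧
    ∀ (S : Finset ℕ) (hN'S : ∀ r : ℕ, r.Prime → r ∣ N' → r ∈ S)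
      (hMS : ∀ r : ℕ, r.Prime → r ∣ N' * q → r ∈ S) (_ : ∀ r : ℕ, r.Prime → r ∣ p → r ∈ S)
      (ζ : ℂ) (hζ : IsPrimitiveRoot ζ p)
      (P : MvPolynomial (PrimeIdx S) ℤ) (_ : MvPolynomial.aeval (TfamH hN'S) P = 0),
      FP.AbHyp h A p (kumHecke (N' * q) (↑S : Set ℕ) p hζ (MvPolynomial.aeval (TfamH hMS) P))

/-- the global `FPInputs` of GATE-B give the FP triple at every `(p ≥ 5, q ≠ 2)`. -/
theorem fpAt_of_fpInputs (hFP : Fermat.Agent.GB.A.A6.Toric.FPInputs)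
    (p : ℕ) [Fact p.Prime] (hp5 : 5 ≤ p) (N' q : ℕ) [NeZero N'] [Fact q.Prime]
    (h : ExactDvd q (N' * q)) (hq2 : q ≠ 2) (hqp : q ≠ p)
    (A : ValuationSubring Kb) (hA : A.LiesOverPrime q) : FPAt p N' q h A :=
  hFP p hp5 N' q h hq2 hqp A hA

/-- **Toric, at one `(p, W, N', q, A)`** — re-run of `Toric.toricStmt_of_fpInputs`: given the FP
triple at `A`, the eigenspace lies in `ker r₁ ⊓ ker r₂` at `A` as soon as the killer exists.
`p` is any odd prime, `q ≠ p` any prime. -/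
theorem toric_of_fpAt (p : ℕ) [Fact p.Prime] (hp2 : p ≠ 2) (W : WeierstrassCurve ℤ)
    (hΔ : W.Δ ≠ 0) (hcard : Nat.card (Tp W p) = p ^ 2) (hirr : W.ModRepIsIrreducible p)
    (N' q : ℕ) [NeZero N'] [Fact q.Prime] (h : ExactDvd q (N' * q)) (hqp : q ≠ p)
    (hunr : ∀ A : ValuationSubring Kb, A.LiesOverPrime q →
      ∀ σ ∈ A.inertiaSubgroupIn ℚ, rho W p σ = 1)
    (S : Finset ℕ) (hN'S : ∀ r : ℕ, r.Prime → r ∣ N' → r ∈ S)
    (hMS : ∀ r : ℕ, r.Prime → r ∣ N' * q → r ∈ S) (hpS : p ∈ S)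
    (hΔS : ∀ ℓ : ℕ, ℓ.Prime → (ℓ : ℤ) ∣ W.Δ → ℓ ∈ S)
    (P : MvPolynomial (PrimeIdx S) ℤ) (hP0 : MvPolynomial.aeval (TfamH hN'S) P = 0)
    (hPid : ∀ (ζ : ℂ) (hζ : IsPrimitiveRoot ζ p) (x : Additive (Kum Kb (FK (N' * q)) p)),
      x ∈ eigQ (N' * q) p S hMS (fun ℓ => W.apOfModel ℓ) →
        kumHecke (N' * q) (↑S : Set ℕ) p hζ (MvPolynomial.aeval (TfamH hMS) P) x = x)
    (A : ValuationSubring Kb) (hA : A.LiesOverPrime q) (hFP : FPAt p N' q h A) :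
    ∀ y ∈ eigQ (N' * q) p S hMS (fun ℓ => W.apOfModel ℓ),
      y ∈ kerRed (N' * q) A p ⊓ kerRed₂ h A p := by
  have hp : p.Prime := Fact.out
  have hmS : ∀ r : ℕ, r.Prime → r ∣ p → r ∈ S := fun r hr hrp =>
    ((Nat.prime_dvd_prime_iff_eq hr hp).1 hrp) ▸ hpS
  have hζ : IsPrimitiveRoot (Complex.exp (2 * Real.pi * Complex.I / p)) p :=
    Complex.isPrimitiveRoot_exp p (NeZero.ne p)
  obtain ⟨⟨ObZero, hA3, hE⟩, hA4, hA5⟩ := hFP
  -- a non-Eisenstein prime outside `S`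
  haveI : (W.map (Int.castRingHom ℚ)).IsElliptic := by
    refine ⟨?_⟩
    rw [WeierstrassCurve.map_Δ]
    exact IsUnit.mk0 _ (by simpa using hΔ)
  have hmodel : W.IsIntegralModelOf (W.map (Int.castRingHom ℚ)) := ⟨1, by rw [one_smul]⟩
  obtain ⟨ℓ₀, hℓ₀, hℓ₀S, -, -, hne⟩ :=
    Fermat.Agent.GM.NonEis.exists_good_prime_ap_ne (W.map (Int.castRingHom ℚ)) hmodel hp hp2
      hirr S
  have hℓ₀M : ¬ ℓ₀ ∣ N' * q := fun hd => hℓ₀S (hMS ℓ₀ hℓ₀ hd)
  set a : ℕ → ℤ := fun ℓ => W.apOfModel ℓ with ha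
  set c : ZMod p := ((a ℓ₀ : ℤ) : ZMod p) - ((ℓ₀ + 1 : ℕ) : ZMod p) with hc
  have hc0 : c ≠ 0 := by
    rw [hc, sub_ne_zero]
    intro h1
    apply hne
    rw [h1]
    push_cast
    ring
  set E : Module.End (ZMod p) (Additive (Kum Kb (FK (N' * q)) p)) :=
    kumTl (N' * q) p hℓ₀ hℓ₀M - ((ℓ₀ + 1 : ℕ) : ZMod p) • 1 with hEdef
  have hEQ : ∀ y ∈ eigQ (N' * q) p S hMS a, E y = c • y := fun y hy => by
    rw [hEdef, LinearMap.sub_apply, LinearMap.smul_apply, Module.End.one_apply,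
      kumTl_eq_of_mem hy hℓ₀ hℓ₀S hℓ₀M, hc, sub_smul]
  refine FP.le_toric (h := h) (A := A) (m := p) (ObZero := ObZero)
    (t := kumHecke (N' * q) (↑S : Set ℕ) p hζ (MvPolynomial.aeval (TfamH hMS) P)) (E := E)
    hA3 hA4 (hA5 S hN'S hMS hmS _ hζ P hP0) ?_ (eigQ (N' * q) p S hMS a) ?_ ?_ ?_
  · intro y hy
    have := hE ℓ₀ hℓ₀ hℓ₀M y hy
    rw [hEdef, LinearMap.sub_apply, LinearMap.smul_apply, Module.End.one_apply]
    exact this
  · exact Fermat.Agent.GB.A.A6.Inertia.eigQ_le_invSub hΔ hcard hirr hp2 S hMS hpS a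
      (fun _ _ _ _ => rfl) A (hunr A hA)
  · intro y hy
    refine ⟨c⁻¹ • y, Submodule.smul_mem _ _ hy, ?_⟩
    rw [hEQ _ (Submodule.smul_mem _ _ hy), smul_smul, mul_inv_cancel₀ hc0, one_smul]
  · intro y hy
    exact ⟨y, hy, hPid _ hζ y hy⟩

/-- **CASE A at one `(p, W, N', q)`** — re-run of `CaseA.caseA38_of` with the three binders
localised: `p` any odd prime, `q ≠ p` any prime, `q ∥ N' q`.  If `W` is residually modular of level
`N' q`, unramified at `q`, and NOT residually modular of level `N'`, then `q ≡ 1 (mod p)` and every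
Frobenius at `q` is scalar on `W[p]` — provided the eigenspace is toric at every place over `q`
(for every killer). -/
theorem caseA_of_toric (hcof : CongrAll) (hsup : SupplyStmt)
    (p : ℕ) [Fact p.Prime] (hp2 : p ≠ 2) (W : WeierstrassCurve ℤ) (hΔ : W.Δ ≠ 0)
    (hcard₁ : Nat.card (Submodule.torsionBy ℤ
      ((W.map (Int.castRingHom ℚ))⁄(AlgebraicClosure ℚ)).Point p) = p ^ 2)
    (hker : GaloisFactorsThroughFiniteLevel
      (WeierstrassCurve.Affine.Point.galoisRepModuleEnd (K := AlgebraicClosure ℚ) ℚ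
        (W.map (Int.castRingHom ℚ)) p))
    (hirr : W.ModRepIsIrreducible p) (N' q : ℕ) [NeZero N'] [Fact q.Prime]
    (h : ExactDvd q (N' * q)) (hqp : q ≠ p)
    (hunr : ((W.map (Int.castRingHom ℚ)).residualGaloisRepOf p hcard₁ hker).IsUnramifiedAt q)
    (hres : W.IsResiduallyModularOfLevel p (N' * q))
    (hnot : ¬ W.IsResiduallyModularOfLevel p N')
    (htoric : ∀ (S : Finset ℕ) (hN'S : ∀ r : ℕ, r.Prime → r ∣ N' → r ∈ S)
      (hMS : ∀ r : ℕ, r.Prime → r ∣ N' * q → r ∈ S) (_ : p ∈ S)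
      (_ : ∀ ℓ : ℕ, ℓ.Prime → (ℓ : ℤ) ∣ W.Δ → ℓ ∈ S)
      (P : MvPolynomial (PrimeIdx S) ℤ) (_ : MvPolynomial.aeval (TfamH hN'S) P = 0)
      (_ : ∀ (ζ : ℂ) (hζ : IsPrimitiveRoot ζ p) (x : Additive (Kum Kb (FK (N' * q)) p)),
        x ∈ eigQ (N' * q) p S hMS (fun ℓ => W.apOfModel ℓ) →
          kumHecke (N' * q) (↑S : Set ℕ) p hζ (MvPolynomial.aeval (TfamH hMS) P) x = x)
      (A : ValuationSubring Kb) (_ : A.LiesOverPrime q),
      ∀ y ∈ eigQ (N' * q) p S hMS (fun ℓ => W.apOfModel ℓ),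
        y ∈ kerRed (N' * q) A p ⊓ kerRed₂ h A p) :
    q % p = 1 ∧ ScalarFrob38 W p q := by
  have hp : p.Prime := Fact.out
  have hq : q.Prime := Fact.out
  haveI : NeZero q := ⟨hq.ne_zero⟩
  have hM0 : N' * q ≠ 0 := mul_ne_zero (NeZero.ne N') hq.ne_zero
  have hcard : Nat.card (Tp W p) = p ^ 2 := hcard₁
  have h2 : (2 : ZMod p) ≠ 0 := by
    intro h2
    have : ((2 : ℕ) : ZMod p) = 0 := by exact_mod_cast h2
    rw [ZMod.natCast_eq_zero_iff] at this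
    exact hp2 ((Nat.prime_dvd_prime_iff_eq hp Nat.prime_two).1 this)
  -- the set `S`
  have hΔabs : W.Δ.natAbs ≠ 0 := Int.natAbs_ne_zero.2 hΔ
  have hn0 : N' * q * p * W.Δ.natAbs ≠ 0 :=
    mul_ne_zero (mul_ne_zero hM0 hp.ne_zero) hΔabs
  set S : Finset ℕ := (N' * q * p * W.Δ.natAbs).primeFactors with hS
  have hmemS : ∀ r : ℕ, r.Prime → r ∣ N' * q * p * W.Δ.natAbs → r ∈ S := fun r hr hd =>
    Nat.mem_primeFactors.2 ⟨hr, hd, hn0⟩
  have hMS : ∀ r : ℕ, r.Prime → r ∣ N' * q → r ∈ S := fun r hr hd =>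
    hmemS r hr (Dvd.dvd.mul_right (Dvd.dvd.mul_right hd p) _)
  have hN'S : ∀ r : ℕ, r.Prime → r ∣ N' → r ∈ S := fun r hr hd =>
    hMS r hr (Dvd.dvd.mul_right hd q)
  have hpS : p ∈ S := hmemS p hp (Dvd.dvd.mul_right (Dvd.intro_left _ rfl) _)
  have hΔS : ∀ ℓ : ℕ, ℓ.Prime → (ℓ : ℤ) ∣ W.Δ → ℓ ∈ S := fun ℓ hℓ hd =>
    hmemS ℓ hℓ (Dvd.dvd.mul_left (Int.natCast_dvd.1 hd) _)
  have hmS : ∀ r : ℕ, r.Prime → r ∣ p → r ∈ S := fun r hr hrp =>
    ((Nat.prime_dvd_prime_iff_eq hr hp).1 hrp) ▸ hpS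
  set a : ℕ → ℤ := fun ℓ => W.apOfModel ℓ with ha
  -- the eigenspace
  have hQ0 : eigQ (N' * q) p S hMS a ≠ ⊥ := hsup (N' * q) p W hres S hMS hpS hΔS
  -- the killer
  have hno : ¬ ∃ (g : CuspForm (Gamma0 N') 2) (𝔪' : Ideal (integralClosure ℤ ℂ)),
      g.IsNormalizedEigenform ∧ 𝔪'.IsMaximal ∧ (p : integralClosure ℤ ℂ) ∈ 𝔪' ∧
      ∀ ℓ : ℕ, ℓ.Prime → ℓ ∉ S →
        ∃ c : integralClosure ℤ ℂ, (c : ℂ) = qCoeff g ℓ ∧
          c - ((a ℓ : ℤ) : integralClosure ℤ ℂ) ∈ 𝔪' := by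
    rintro ⟨g, 𝔪', hg, hmax, hpm, hc⟩
    exact hnot ⟨g, 𝔪', hg, hmax, hpm,
      hcof W hΔ p N' hp g 𝔪' hg hmax hpm S (fun ℓ hℓ hℓS _ _ _ => hc ℓ hℓ hℓS)⟩
  obtain ⟨P, hP0, hPid⟩ := exists_killer hN'S p a hno
  have hζ : IsPrimitiveRoot (Complex.exp (2 * Real.pi * Complex.I / p)) p :=
    Complex.isPrimitiveRoot_exp p (NeZero.ne p)
  -- basis and absolute irreducibility
  obtain ⟨b, hb0, hb1⟩ := exists_basis_conj hΔ hcard hirr hp2
  have hspan := span_rhoM_eq_top hcard hirr hp2 b hb0 hb1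
  have hunr' : ∀ A : ValuationSubring Kb, A.LiesOverPrime q →
      ∀ σ ∈ A.inertiaSubgroupIn ℚ, rho W p σ = 1 := hunr
  have hqM' : q ∣ N' * q := Dvd.intro_left N' rfl
  -- the main step, at a place `A` over `q` and a Frobenius lift `φ`
  have main : ∀ (A : ValuationSubring Kb) (hA : A.LiesOverPrime q) (φ : GQ')
      (hφ : A.IsFrobeniusAt φ q),
      (q : ZMod p) = 1 ∧ ∃ c : ZMod p, rhoM b φ = c • (1 : Matrix (Fin 2) (Fin 2) (ZMod p)) := by
    intro A hA φ hφ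
    have htor := htoric S hN'S hMS hpS hΔS P hP0
      (fun ζ hζ x hx => hPid (N' * q) hMS ζ hζ x hx) A hA
    refine Fermat.Agent.GB.A.A6.Abs.caseA_abs_A1 (k := ZMod p) (G := GQ') h2
      (gal (N' * q) p) (rhoM b) (cyc p) hspan (eigQ (N' * q) p S hMS a) hQ0
      (fun g x hx => gal_mem_eigQ g hx)
      (fun g x hx => eigQ_rel hΔ hcard hirr S hMS hpS a (fun _ _ _ _ => rfl) b g hx)
      (aLow N' q p).toAddMonoidHom (aUp N' q p).toAddMonoidHom
      (autEnd (wAut h : FK (N' * q) ≃ₐ[Kb] FK (N' * q)) p) (UEnd (N' * q) p hqM')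
      (fun y => aUp_aLow_wAut h p y) (fun y => autEnd_wAut_autEnd_wAut h p y)
      (fun g y => (LinearMap.congr_fun (UEnd_comm_gal p hqM' g) y).symm)
      (fun x hx => end_mem_eigQ hmS _ (fun σ y => autEnd_wAut_gal h p σ y) hx)
      ?_ (↑(kerRed (N' * q) A p ⊓ kerRed₂ h A p) : Set (Additive (Kum Kb (FK (N' * q)) p)))
      (fun x hx => htor x hx) φ (q : ZMod p) ?_ ?_ ?_
    · -- hnew
      have hdie : ∀ x ∈ eigQ (N' * q) p S hMS a, aLow N' q p x = 0 := fun x hx => by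
        have h1 := kumHecke_aeval_dies S p hζ hMS hN'S hmS (aLow N' q p)
          (fun σ y => aLow_gal N' q p σ y) P hP0 x
        rwa [hPid (N' * q) hMS _ hζ x hx] at h1
      intro x hx
      exact ⟨hdie x hx, hdie _ (end_mem_eigQ hmS _ (fun σ y => autEnd_wAut_gal h p σ y) hx)⟩
    · -- q ≠ 0 in F_p
      intro h0
      rw [ZMod.natCast_eq_zero_iff] at h0
      exact hqp ((Nat.prime_dvd_prime_iff_eq hp hq).1 h0).symm
    · -- hA1
      intro z hz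
      have hqp' : ¬ q ∣ p := fun hd => hqp ((Nat.prime_dvd_prime_iff_eq hq hp).1 hd)
      have := Fermat.Agent.GB.A1.frobW_all (N' * q) q h p hqp' A hA φ hφ z hz.1 hz.2
      rw [Nat.cast_smul_eq_nsmul (ZMod p)]
      exact this
    · -- hdet
      rw [det_rhoM hΔ hcard hirr b φ, cyc_frob hq hqp hA hφ]
  obtain ⟨A, φ, hA, hφ⟩ := Fermat.Agent.Common_helper32.exists_isFrobeniusAt q hq
  refine ⟨?_, fun A hA φ hφ => ?_⟩
  · have h1 := (main A hA φ hφ).1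
    have h3 : ((q : ℕ) : ZMod p) = ((1 : ℕ) : ZMod p) := by rw [h1, Nat.cast_one]
    rw [ZMod.natCast_eq_natCast_iff'] at h3
    have hp1 : 1 < p := hp.one_lt
    rw [h3, Nat.mod_eq_of_lt hp1]
  · obtain ⟨c, hc⟩ := (main A hA φ hφ).2
    exact ⟨c, (rhoM_eq_smul_one_iff b φ c).1 hc⟩

/-- **CASE A at one `(p, W, N', q)` from the FP triple at every place over `q`.** -/
theorem caseA_of_fpAt
    (p : ℕ) [Fact p.Prime] (hp2 : p ≠ 2) (W : WeierstrassCurve ℤ) (hΔ : W.Δ ≠ 0)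
    (hcard₁ : Nat.card (Submodule.torsionBy ℤ
      ((W.map (Int.castRingHom ℚ))⁄(AlgebraicClosure ℚ)).Point p) = p ^ 2)
    (hker : GaloisFactorsThroughFiniteLevel
      (WeierstrassCurve.Affine.Point.galoisRepModuleEnd (K := AlgebraicClosure ℚ) ℚ
        (W.map (Int.castRingHom ℚ)) p))
    (hirr : W.ModRepIsIrreducible p) (N' q : ℕ) [NeZero N'] [Fact q.Prime]
    (h : ExactDvd q (N' * q)) (hqp : q ≠ p)
    (hunr : ((W.map (Int.castRingHom ℚ)).residualGaloisRepOf p hcard₁ hker).IsUnramifiedAt q)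
    (hres : W.IsResiduallyModularOfLevel p (N' * q))
    (hnot : ¬ W.IsResiduallyModularOfLevel p N')
    (hFP : ∀ A : ValuationSubring Kb, A.LiesOverPrime q → FPAt p N' q h A) :
    q % p = 1 ∧ ScalarFrob38 W p q :=
  caseA_of_toric
    (fun W hΔ p N hp f 𝔪 hf h𝔪 hp𝔪 B h =>
      Fermat.Agent.GB.Top.CongrAll.congr_all_of_cofinite W hΔ p N hp f 𝔪 hf h𝔪 hp𝔪 B h)
    (fun _ _ _ _ W hres S hMS hpS hΔS =>
      Fermat.Agent.GB.A.A6.Supply.eigQ_ne_bot W hres S hMS hpS hΔS _ (fun _ _ _ => rfl))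
    p hp2 W hΔ hcard₁ hker hirr N' q h hqp hunr hres hnot
    (fun S hN'S hMS hpS hΔS P hP0 hPid A hA =>
      toric_of_fpAt p hp2 W hΔ hcard₁ hirr N' q h hqp hunr S hN'S hMS hpS hΔS P hP0 hPid A hA
        (hFP A hA))

end Fermat.Agent.GE8.LLQ.CaseACore
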