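/-
GATE-E / E8.3 LLQ (helper86), follow-up of the audit (board 6754 §4(a)): **CASE A (Mazur's
principle) in the frozen S38 shape for EVERY odd prime `p` and EVERY prime `q ≠ p` — also `q = 2`,
also `p = 3` — at levels without elliptic points.**

GATE-B's `GB.Top.S43Frey.CaseA38` carries `5 ≤ p` and `q ≠ 2`.  The audit shows that both enter
only through the level descent `M·4 → M` (`GB/A/Desc`); the BASE lemmas

* A3 : `GB/A/FPInst.a3`            (unconditional),
* A4 : `GB.A4.Main.nodeHyp`        (any `m`; `ℓ = 2 → 3 ∣ N'`, `ℓ = 3 → 2 ∣ N'`,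
                                    `nuTwo N' = 0`, `nuThree N' = 0`),
* A5 : `GB/A/A5/KerRedUp.abHyp`    (any `m` prime to `q`; `q = 2 → 3 ∣ N'`, `q = 3 → 2 ∣ N'`)

have no condition on `p` at all.  So:

* `fpAt_side`        : the FP triple at `(p, N', q)` under the four side conditions on `N'`;
* `CaseA38side`      : the statement — `CaseA38` with `(5 ≤ p) (q ≠ 2)` replaced by `(p ≠ 2)`
                       `(q = 2 → 3 ∣ M / q) (q = 3 → 2 ∣ M / q) (nuTwo (M / q) = 0)`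
                       `(nuThree (M / q) = 0)`;
* `caseA38side`      : its proof (no binder);
* `lower_of_not_one_mod` : if moreover `q % p ≠ 1` the level is lowered (Mazur's principle proper);
  in particular ALWAYS at `q ∈ {2, 3}` for `p ∈ {3, 5}`;
* `caseA38_aux`      : with an auxiliary prime `r ≡ 11 (mod 12)` dividing `M / q`
                       (`GL/AuxPrime.exists_aux_prime`) only the two frame conditions at
                       `q ∈ {2, 3}` remain; none at all for `q ≥ 5`.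
-/
import Mathlib
import Fermat.Agent.GE8.LLQ.CaseACore
import Fermat.Agent.GB.A.FPInst
import Fermat.Agent.GB.A.A4.Main
import Fermat.Agent.GB.A.A5.KerRedUp
import Fermat.Agent.GL.AuxPrime

set_option autoImplicit false
set_option linter.unusedSectionVars false
set_option linter.unusedVariables false
set_option linter.style.haveILetI false

noncomputable section

open WeierstrassCurve WeierstrassCurve.Affine WeierstrassCurve.Affine.Point
open scoped WeierstrassCurve.Affine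

namespace Fermat.Agent.GE8.LLQ.CaseASide

open AlgebraicCurve ModularCurve
open Fermat.Agent.GJ Fermat.Agent.GJ.KumGroup Fermat.Agent.GJ.Kum.KumType
open Fermat.Agent.GK.UQ Fermat.Agent.GK.New Fermat.Agent.GK.Tate.KumHecke
open Fermat.Agent.GK.UqKronecker Fermat.Agent.GK.AL
open Fermat.Agent.GB.A Fermat.Agent.GB.Top.S43Frey
open Fermat.Agent.GE8.LLQ.CaseACore

/-- **the FP triple (A3 + A4 + A5) at `(p, N', q)`, any `p`, any `q ≠ p`,** at a level `N'`
without elliptic points which carries the frames at residue characteristic `q`. -/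
theorem fpAt_side (p : ℕ) [Fact p.Prime] (N' q : ℕ) [NeZero N'] [Fact q.Prime]
    (h : ExactDvd q (N' * q)) (hqp : q ≠ p)
    (h2 : q = 2 → 3 ∣ N') (h3 : q = 3 → 2 ∣ N')
    (hν2 : nuTwo N' = 0) (hν3 : nuThree N' = 0)
    (A : ValuationSubring Kb) (hA : A.LiesOverPrime q) : FPAt p N' q h A := by
  have hp : p.Prime := Fact.out
  have hq : q.Prime := Fact.out
  haveI : NeZero q := ⟨hq.ne_zero⟩
  haveI : NeZero p := ⟨hp.ne_zero⟩
  have hqp' : ¬ q ∣ p := fun hd => hqp ((Nat.prime_dvd_prime_iff_eq hq hp).1 hd)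
  have hqN' : ¬ q ∣ N' := Fermat.Agent.GK.PsiFNGood.not_dvd_good N' h
  refine ⟨Fermat.Agent.GB.A.FPInst.a3 p N' q h A hA,
    Fermat.Agent.GB.A4.Main.nodeHyp h hqN' hA h2 h3 hν2 hν3 p, ?_⟩
  intro S hN'S hMS hmS ζ hζ P hP
  exact Fermat.Agent.GB.A.A5.KerRedUp.abHyp A hA N' h h2 h3 S p hqp' hζ hN'S hMS hmS P hP

/-- **CASE A with side conditions** (Mazur's principle at `q ≠ p`, ALL odd `p`, ALL `q`): the
frozen S38 binders with `(5 ≤ p) (q ≠ 2)` of `GB.Top.S43Frey.CaseA38` replaced by `p ≠ 2` and the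
four side conditions on `M / q`.  If the level cannot be lowered at `q`, then `q ≡ 1 (mod p)` and
the Frobenius elements at `q` are scalar on `W[p]`. -/
def CaseA38side : Prop :=
  ∀ (p : ℕ) [Fact p.Prime] (_ : p ≠ 2) (W : WeierstrassCurve ℤ) (_ : W.Δ ≠ 0)
    (_ : W.IsSemistableModel)
    (hcard₁ : Nat.card (Submodule.torsionBy ℤ
      ((W.map (Int.castRingHom ℚ))⁄(AlgebraicClosure ℚ)).Point p) = p ^ 2)
    (hker : GaloisFactorsThroughFiniteLevel
      (WeierstrassCurve.Affine.Point.galoisRepModuleEnd (K := AlgebraicClosure ℚ) ℚ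
        (W.map (Int.castRingHom ℚ)) p))
    (_ : W.ModRepIsIrreducible p) (M q : ℕ) (_ : q.Prime) (_ : q ≠ p)
    (_ : q ∣ M) (_ : Squarefree M)
    (_ : q = 2 → 3 ∣ M / q) (_ : q = 3 → 2 ∣ M / q)
    (_ : nuTwo (M / q) = 0) (_ : nuThree (M / q) = 0)
    (_ : ((W.map (Int.castRingHom ℚ)).residualGaloisRepOf p hcard₁ hker).IsUnramifiedAt q)
    (_ : W.IsResiduallyModularOfLevel p M)
    (_ : ¬ W.IsResiduallyModularOfLevel p (M / q)),
    q % p = 1 ∧ ScalarFrob38 W p q

/-- **CASE A with side conditions, no binder.** -/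
theorem caseA38side : CaseA38side := by
  intro p _ hp2 W hΔ _ hcard₁ hker hirr M q hq hqp hqM hMsq h2 h3 hν2 hν3 hunr hres hnot
  obtain ⟨N', rfl⟩ : ∃ N', M = N' * q := ⟨M / q, (Nat.div_mul_cancel hqM).symm⟩
  rw [Nat.mul_div_cancel _ hq.pos] at hnot h2 h3 hν2 hν3
  haveI : Fact q.Prime := ⟨hq⟩
  have hM0 : N' * q ≠ 0 := hMsq.ne_zero
  have hN'0 : N' ≠ 0 := left_ne_zero_of_mul hM0
  haveI : NeZero N' := ⟨hN'0⟩
  have hq2' : ¬ q ^ 2 ∣ N' * q := fun hd => by
    have h1 := hMsq q (by rw [← sq]; exact hd)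
    exact hq.one_lt.ne' (Nat.isUnit_iff.1 h1)
  have h : ExactDvd q (N' * q) := ⟨hq, hqM, hq2'⟩
  exact caseA_of_fpAt p hp2 W hΔ hcard₁ hker hirr N' q h hqp hunr hres hnot
    (fun A hA => fpAt_side p N' q h hqp h2 h3 hν2 hν3 A hA)

/-- **Mazur's principle proper**: under the side conditions, if `q ≢ 1 (mod p)` the level is
lowered at `q`. -/
theorem lower_of_not_one_mod
    (p : ℕ) [Fact p.Prime] (hp2 : p ≠ 2) (W : WeierstrassCurve ℤ) (hΔ : W.Δ ≠ 0)
    (hW : W.IsSemistableModel)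
    (hcard₁ : Nat.card (Submodule.torsionBy ℤ
      ((W.map (Int.castRingHom ℚ))⁄(AlgebraicClosure ℚ)).Point p) = p ^ 2)
    (hker : GaloisFactorsThroughFiniteLevel
      (WeierstrassCurve.Affine.Point.galoisRepModuleEnd (K := AlgebraicClosure ℚ) ℚ
        (W.map (Int.castRingHom ℚ)) p))
    (hirr : W.ModRepIsIrreducible p) (M q : ℕ) (hq : q.Prime) (hqp : q ≠ p)
    (hqM : q ∣ M) (hMsq : Squarefree M)
    (h2 : q = 2 → 3 ∣ M / q) (h3 : q = 3 → 2 ∣ M / q)
    (hν2 : nuTwo (M / q) = 0) (hν3 : nuThree (M / q) = 0)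
    (hunr : ((W.map (Int.castRingHom ℚ)).residualGaloisRepOf p hcard₁ hker).IsUnramifiedAt q)
    (hres : W.IsResiduallyModularOfLevel p M) (hq1 : q % p ≠ 1) :
    W.IsResiduallyModularOfLevel p (M / q) := by
  by_contra hnot
  exact hq1 (caseA38side p hp2 W hΔ hW hcard₁ hker hirr M q hq hqp hqM hMsq h2 h3 hν2 hν3 hunr
    hres hnot).1

/-- **the primes `2` and `3` are always removable** (`p ∈ {3, 5}`, or any odd `p` not dividing
`q - 1`): `2 % p ≠ 1` and `3 % p ≠ 1` for every odd prime `p`. -/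
theorem two_mod_ne_one {p : ℕ} (hp : p.Prime) (hp2 : p ≠ 2) : 2 % p ≠ 1 := by
  have h3 : 3 ≤ p := by
    have := hp.two_le
    omega
  rw [Nat.mod_eq_of_lt (by omega)]
  norm_num

theorem three_mod_ne_one {p : ℕ} (hp : p.Prime) (hp2 : p ≠ 2) : 3 % p ≠ 1 := by
  have h3 : 3 ≤ p := by
    have := hp.two_le
    omega
  rcases Nat.lt_or_ge 3 p with h | h
  · rw [Nat.mod_eq_of_lt h]
    norm_num
  · have : p = 3 := le_antisymm h h3
    subst this
    norm_num

/-- **CASE A at a level with an auxiliary prime** `r ≡ 11 (mod 12)`, `r ∣ M / q`: only the frame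
conditions at `q ∈ {2, 3}` remain. -/
theorem caseA38_aux
    (p : ℕ) [Fact p.Prime] (hp2 : p ≠ 2) (W : WeierstrassCurve ℤ) (hΔ : W.Δ ≠ 0)
    (hW : W.IsSemistableModel)
    (hcard₁ : Nat.card (Submodule.torsionBy ℤ
      ((W.map (Int.castRingHom ℚ))⁄(AlgebraicClosure ℚ)).Point p) = p ^ 2)
    (hker : GaloisFactorsThroughFiniteLevel
      (WeierstrassCurve.Affine.Point.galoisRepModuleEnd (K := AlgebraicClosure ℚ) ℚ
        (W.map (Int.castRingHom ℚ)) p))
    (hirr : W.ModRepIsIrreducible p) (M q : ℕ) (hq : q.Prime) (hqp : q ≠ p)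
    (hqM : q ∣ M) (hMsq : Squarefree M)
    (r : ℕ) (hr : r.Prime) (hr12 : r % 12 = 11) (hrM : r ∣ M / q)
    (h2 : q = 2 → 3 ∣ M / q) (h3 : q = 3 → 2 ∣ M / q)
    (hunr : ((W.map (Int.castRingHom ℚ)).residualGaloisRepOf p hcard₁ hker).IsUnramifiedAt q)
    (hres : W.IsResiduallyModularOfLevel p M)
    (hnot : ¬ W.IsResiduallyModularOfLevel p (M / q)) :
    q % p = 1 ∧ ScalarFrob38 W p q :=
  caseA38side p hp2 W hΔ hW hcard₁ hker hirr M q hq hqp hqM hMsq h2 h3
    (Fermat.Agent.GL.AuxPrime.nuTwo_eq_zero_of_dvd hr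
      (Fermat.Agent.GL.AuxPrime.mod_four_of_mod_twelve hr12) hrM)
    (Fermat.Agent.GL.AuxPrime.nuThree_eq_zero_of_dvd hr
      (Fermat.Agent.GL.AuxPrime.mod_three_of_mod_twelve hr12) hrM)
    hunr hres hnot

/-- for `q ≥ 5` no frame condition is left. -/
theorem caseA38_aux_of_five_le
    (p : ℕ) [Fact p.Prime] (hp2 : p ≠ 2) (W : WeierstrassCurve ℤ) (hΔ : W.Δ ≠ 0)
    (hW : W.IsSemistableModel)
    (hcard₁ : Nat.card (Submodule.torsionBy ℤ
      ((W.map (Int.castRingHom ℚ))⁄(AlgebraicClosure ℚ)).Point p) = p ^ 2)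
    (hker : GaloisFactorsThroughFiniteLevel
      (WeierstrassCurve.Affine.Point.galoisRepModuleEnd (K := AlgebraicClosure ℚ) ℚ
        (W.map (Int.castRingHom ℚ)) p))
    (hirr : W.ModRepIsIrreducible p) (M q : ℕ) (hq : q.Prime) (hq5 : 5 ≤ q) (hqp : q ≠ p)
    (hqM : q ∣ M) (hMsq : Squarefree M)
    (r : ℕ) (hr : r.Prime) (hr12 : r % 12 = 11) (hrM : r ∣ M / q)
    (hunr : ((W.map (Int.castRingHom ℚ)).residualGaloisRepOf p hcard₁ hker).IsUnramifiedAt q)
    (hres : W.IsResiduallyModularOfLevel p M)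
    (hnot : ¬ W.IsResiduallyModularOfLevel p (M / q)) :
    q % p = 1 ∧ ScalarFrob38 W p q :=
  caseA38_aux p hp2 W hΔ hW hcard₁ hker hirr M q hq hqp hqM hMsq r hr hr12 hrM
    (fun e => by omega) (fun e => by omega) hunr hres hnot

/-- **GATE-B's `CaseA38` is the special case `5 ≤ p`, `q ≠ 2` of the localised core** (sanity
check of the re-run: the FP inputs of GATE-B give back `CaseA38`). -/
theorem caseA38_of_fpInputs' (hFP : Fermat.Agent.GB.A.A6.Toric.FPInputs) : CaseA38 := by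
  intro p _ hp5 W hΔ _ hcard₁ hker hirr M q hq hq2 hqp hqM hMsq hunr hres hnot
  obtain ⟨N', rfl⟩ : ∃ N', M = N' * q := ⟨M / q, (Nat.div_mul_cancel hqM).symm⟩
  rw [Nat.mul_div_cancel _ hq.pos] at hnot
  haveI : Fact q.Prime := ⟨hq⟩
  have hM0 : N' * q ≠ 0 := hMsq.ne_zero
  haveI : NeZero N' := ⟨left_ne_zero_of_mul hM0⟩
  have hq2' : ¬ q ^ 2 ∣ N' * q := fun hd => by
    have h1 := hMsq q (by rw [← sq]; exact hd)
    exact hq.one_lt.ne' (Nat.isUnit_iff.1 h1)
  have h : ExactDvd q (N' * q) := ⟨hq, hqM, hq2'⟩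
  exact caseA_of_fpAt p (by omega) W hΔ hcard₁ hker hirr N' q h hqp hunr hres hnot
    (fun A hA => fpAt_of_fpInputs hFP p hp5 N' q h hq2 hqp A hA)

end Fermat.Agent.GE8.LLQ.CaseASide
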