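/-
GATE-E / E8.3 LLQ (helper86): **CASE A for every odd `p` and every `q ≠ p` from a SUPPLY OF
REMOVABLE AUXILIARY PRIMES** (hypothesis form; audit board 6754 §4(b), lead 6572 B).

`CaseASide.caseA38side` needs a level without elliptic points.  An auxiliary prime
`r ≡ 11 (mod 12)` in the level kills them (`GL/AuxPrime`); it has to be taken out afterwards:

* `RemovableAux W p r` : `W` residually modular of level `L r` (squarefree) ⟹ of level `L`
  (to be proved for `r` with `a_r(W) ≢ ±(r + 1) (mod p)`: an eigenform of level `L r` congruent to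
  `ρ̄` is `r`-old or `r`-new, and `r`-new forces `tr ρ̄(Frob_r) = ±(r + 1)` by S35);
* `AuxSupply W p`      : every `n ≠ 0` admits a removable `r ≡ 11 (mod 12)`, `r ∤ n`
  (Chebotarev `DS/N8.chebotarev_lower_GQ_uncond` on `ρ̄ × χ₁₂` + the group theory of E8.6).

From `AuxSupply`:

* `caseA38_of_auxSupply`  : CASE A in the S38 shape, binders `(5 ≤ p) (q ≠ 2)` of GATE-B replaced
  by `p ≠ 2` and the two frame conditions `q = 2 → 3 ∣ M / q`, `q = 3 → 2 ∣ M / q`;
* `caseA38_of_auxSupply_five_le` : no condition at all for `q ≥ 5` (this is `CaseA38` at `p = 3`);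
* `lower_of_auxSupply`    : Mazur's principle proper (`q % p ≠ 1` ⟹ level `M / q`);
* `lower_two_of_auxSupply`, `lower_three_of_auxSupply` : at `q = 2` (resp. `3`) without frame
  condition the level drops to `M / 2 · 3` (resp. `M / 3 · 2`) — the frame prime is put into the
  level first.
-/
import Mathlib
import Fermat.Agent.GE8.LLQ.CaseASide
import Fermat.Agent.GB.Top.SplitT

set_option autoImplicit false
set_option linter.unusedSectionVars false
set_option linter.unusedVariables false

noncomputable section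

open WeierstrassCurve WeierstrassCurve.Affine WeierstrassCurve.Affine.Point
open scoped WeierstrassCurve.Affine

namespace Fermat.Agent.GE8.LLQ.AuxJuggle

open ModularCurve
open Fermat.Agent.GB.Top.S43Frey Fermat.Agent.GE8.LLQ.CaseASide

/-- **the auxiliary prime `r` can be taken out of the level** (for `W` modulo `p`). -/
def RemovableAux (W : WeierstrassCurve ℤ) (p r : ℕ) : Prop :=
  ∀ L : ℕ, Squarefree (L * r) → W.IsResiduallyModularOfLevel p (L * r) →
    W.IsResiduallyModularOfLevel p L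

/-- **supply of removable auxiliary primes** `r ≡ 11 (mod 12)` outside any given `n`. -/
def AuxSupply (W : WeierstrassCurve ℤ) (p : ℕ) : Prop :=
  ∀ n : ℕ, n ≠ 0 → ∃ r : ℕ, r.Prime ∧ ¬ r ∣ n ∧ r % 12 = 11 ∧ RemovableAux W p r

/-! ### arithmetic of the levels -/

theorem squarefree_mul_prime {M r : ℕ} (hM : Squarefree M) (hr : r.Prime) (hrM : ¬ r ∣ M) :
    Squarefree (M * r) := by
  rw [Nat.squarefree_mul_iff]
  exact ⟨((Nat.Prime.coprime_iff_not_dvd hr).2 hrM).symm, hM, hr.squarefree⟩

theorem mul_div_of_dvd {M q r : ℕ} (hqM : q ∣ M) : M * r / q = M / q * r := by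
  obtain ⟨k, rfl⟩ := hqM
  rcases Nat.eq_zero_or_pos q with h0 | h0
  · subst h0; simp
  · rw [Nat.mul_div_cancel_left k h0, mul_assoc, Nat.mul_div_cancel_left _ h0]

/-! ### CASE A from the supply -/

section Main

variable (p : ℕ) [Fact p.Prime] (hp2 : p ≠ 2) (W : WeierstrassCurve ℤ) (hΔ : W.Δ ≠ 0)
  (hW : W.IsSemistableModel)
  (hcard₁ : Nat.card (Submodule.torsionBy ℤ
    ((W.map (Int.castRingHom ℚ))⁄(AlgebraicClosure ℚ)).Point p) = p ^ 2)
  (hker : GaloisFactorsThroughFiniteLevel
    (WeierstrassCurve.Affine.Point.galoisRepModuleEnd (K := AlgebraicClosure ℚ) ℚ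
      (W.map (Int.castRingHom ℚ)) p))
  (hirr : W.ModRepIsIrreducible p)

include hp2 hΔ hW hirr in
/-- **CASE A (Mazur's principle) for every odd `p` and every `q ≠ p`**, from a supply of removable
auxiliary primes; only the frame conditions at `q ∈ {2, 3}` are left. -/
theorem caseA38_of_auxSupply (hsup : AuxSupply W p) (M q : ℕ) (hq : q.Prime) (hqp : q ≠ p)
    (hqM : q ∣ M) (hMsq : Squarefree M)
    (h2 : q = 2 → 3 ∣ M / q) (h3 : q = 3 → 2 ∣ M / q)
    (hunr : ((W.map (Int.castRingHom ℚ)).residualGaloisRepOf p hcard₁ hker).IsUnramifiedAt q)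
    (hres : W.IsResiduallyModularOfLevel p M)
    (hnot : ¬ W.IsResiduallyModularOfLevel p (M / q)) :
    q % p = 1 ∧ ScalarFrob38 W p q := by
  have hM0 : M ≠ 0 := hMsq.ne_zero
  obtain ⟨r, hr, hrM, hr12, hrem⟩ := hsup M hM0
  have hsq : Squarefree (M * r) := squarefree_mul_prime hMsq hr hrM
  have hres' : W.IsResiduallyModularOfLevel p (M * r) :=
    Fermat.Agent.GB.Top.SplitT.isResiduallyModularOfLevel_of_dvd hres (Dvd.intro r rfl)
      hsq.ne_zero
  have hdiv : M * r / q = M / q * r := mul_div_of_dvd hqM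
  have hsq' : Squarefree (M / q * r) := by
    rw [← hdiv]
    exact hsq.squarefree_of_dvd (Nat.div_dvd_of_dvd (hqM.mul_right r))
  have hnot' : ¬ W.IsResiduallyModularOfLevel p (M * r / q) := by
    rw [hdiv]
    exact fun h => hnot (hrem (M / q) hsq' h)
  refine caseA38_aux p hp2 W hΔ hW hcard₁ hker hirr (M * r) q hq hqp (hqM.mul_right r) hsq
    r hr hr12 (by rw [hdiv]; exact Dvd.intro_left _ rfl) ?_ ?_ hunr hres' hnot'
  · intro e
    rw [hdiv]
    exact (h2 e).mul_right r
  · intro e
    rw [hdiv]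
    exact (h3 e).mul_right r

include hp2 hΔ hW hirr in
/-- **`CaseA38` for every odd `p` at `q ≥ 5`**, from the supply — no side condition. -/
theorem caseA38_of_auxSupply_five_le (hsup : AuxSupply W p) (M q : ℕ) (hq : q.Prime)
    (hq5 : 5 ≤ q) (hqp : q ≠ p) (hqM : q ∣ M) (hMsq : Squarefree M)
    (hunr : ((W.map (Int.castRingHom ℚ)).residualGaloisRepOf p hcard₁ hker).IsUnramifiedAt q)
    (hres : W.IsResiduallyModularOfLevel p M)
    (hnot : ¬ W.IsResiduallyModularOfLevel p (M / q)) :
    q % p = 1 ∧ ScalarFrob38 W p q :=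
  caseA38_of_auxSupply p hp2 W hΔ hW hcard₁ hker hirr hsup M q hq hqp hqM hMsq
    (fun e => by omega) (fun e => by omega) hunr hres hnot

include hp2 hΔ hW hirr in
/-- **Mazur's principle proper** from the supply: `q ≢ 1 (mod p)` ⟹ the level is lowered. -/
theorem lower_of_auxSupply (hsup : AuxSupply W p) (M q : ℕ) (hq : q.Prime) (hqp : q ≠ p)
    (hqM : q ∣ M) (hMsq : Squarefree M)
    (h2 : q = 2 → 3 ∣ M / q) (h3 : q = 3 → 2 ∣ M / q)
    (hunr : ((W.map (Int.castRingHom ℚ)).residualGaloisRepOf p hcard₁ hker).IsUnramifiedAt q)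
    (hres : W.IsResiduallyModularOfLevel p M) (hq1 : q % p ≠ 1) :
    W.IsResiduallyModularOfLevel p (M / q) := by
  by_contra hnot
  exact hq1 (caseA38_of_auxSupply p hp2 W hΔ hW hcard₁ hker hirr hsup M q hq hqp hqM hMsq h2 h3
    hunr hres hnot).1

include hp2 hΔ hW hirr in
/-- **`q = 2`, no frame condition**: the level drops to `M / 2` if `3 ∣ M`, and to `M / 2 · 3`
otherwise (`3` is put into the level first; for `p = 3` this `3` is `p` itself). -/
theorem lower_two_of_auxSupply (hsup : AuxSupply W p) (M : ℕ) (h2M : 2 ∣ M)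
    (hMsq : Squarefree M)
    (hunr : ((W.map (Int.castRingHom ℚ)).residualGaloisRepOf p hcard₁ hker).IsUnramifiedAt 2)
    (hres : W.IsResiduallyModularOfLevel p M) :
    (3 ∣ M → W.IsResiduallyModularOfLevel p (M / 2)) ∧
      (¬ 3 ∣ M → W.IsResiduallyModularOfLevel p (M / 2 * 3)) := by
  have hp : p.Prime := Fact.out
  have h2p : 2 ≠ p := fun e => hp2 e.symm
  have h21 : 2 % p ≠ 1 := two_mod_ne_one hp hp2
  constructor
  · intro h3M
    refine lower_of_auxSupply p hp2 W hΔ hW hcard₁ hker hirr hsup M 2 Nat.prime_two h2p h2M hMsq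
      (fun _ => ?_) (fun e => absurd e (by norm_num)) hunr hres h21
    exact (Nat.Coprime.dvd_of_dvd_mul_left (by norm_num : Nat.Coprime 3 2)
      (by rw [Nat.mul_div_cancel' h2M]; exact h3M))
  · intro h3M
    have hsq : Squarefree (M * 3) := squarefree_mul_prime hMsq Nat.prime_three h3M
    have hres' : W.IsResiduallyModularOfLevel p (M * 3) :=
      Fermat.Agent.GB.Top.SplitT.isResiduallyModularOfLevel_of_dvd hres (Dvd.intro 3 rfl)
        hsq.ne_zero
    have hdiv : M * 3 / 2 = M / 2 * 3 := mul_div_of_dvd h2M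
    rw [← hdiv]
    refine lower_of_auxSupply p hp2 W hΔ hW hcard₁ hker hirr hsup (M * 3) 2 Nat.prime_two h2p
      (h2M.mul_right 3) hsq (fun _ => ?_) (fun e => absurd e (by norm_num)) hunr hres' h21
    rw [hdiv]
    exact Dvd.intro_left _ rfl

include hp2 hΔ hW hirr in
/-- **`q = 3 ≠ p`, no frame condition**: the level drops to `M / 3` if `2 ∣ M`, and to
`M / 3 · 2` otherwise. -/
theorem lower_three_of_auxSupply (hsup : AuxSupply W p) (hp3 : p ≠ 3) (M : ℕ) (h3M : 3 ∣ M)
    (hMsq : Squarefree M)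
    (hunr : ((W.map (Int.castRingHom ℚ)).residualGaloisRepOf p hcard₁ hker).IsUnramifiedAt 3)
    (hres : W.IsResiduallyModularOfLevel p M) :
    (2 ∣ M → W.IsResiduallyModularOfLevel p (M / 3)) ∧
      (¬ 2 ∣ M → W.IsResiduallyModularOfLevel p (M / 3 * 2)) := by
  have hp : p.Prime := Fact.out
  have h3p : 3 ≠ p := fun e => hp3 e.symm
  have h31 : 3 % p ≠ 1 := three_mod_ne_one hp hp2
  constructor
  · intro h2M
    refine lower_of_auxSupply p hp2 W hΔ hW hcard₁ hker hirr hsup M 3 Nat.prime_three h3p h3M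
      hMsq (fun e => absurd e (by norm_num)) (fun _ => ?_) hunr hres h31
    exact (Nat.Coprime.dvd_of_dvd_mul_left (by norm_num : Nat.Coprime 2 3)
      (by rw [Nat.mul_div_cancel' h3M]; exact h2M))
  · intro h2M
    have hsq : Squarefree (M * 2) := squarefree_mul_prime hMsq Nat.prime_two h2M
    have hres' : W.IsResiduallyModularOfLevel p (M * 2) :=
      Fermat.Agent.GB.Top.SplitT.isResiduallyModularOfLevel_of_dvd hres (Dvd.intro 2 rfl)
        hsq.ne_zero
    have hdiv : M * 2 / 3 = M / 3 * 2 := mul_div_of_dvd h3M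
    rw [← hdiv]
    refine lower_of_auxSupply p hp2 W hΔ hW hcard₁ hker hirr hsup (M * 2) 3 Nat.prime_three h3p
      (h3M.mul_right 2) hsq (fun e => absurd e (by norm_num)) (fun _ => ?_) hunr hres' h31
    rw [hdiv]
    exact Dvd.intro_left _ rfl

end Main

end Fermat.Agent.GE8.LLQ.AuxJuggle
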